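import Fermat.Agent.MahlerPoints.Series

/-!
# The auxiliary polynomial in several variables

For a separated series `F (z_1, …, z_m)` over an algebra of parameters with `F 0` regular, some
`∑ P_h F ^ h` with degrees at most `N` vanishes at `0` to an order `M` with `M / N` arbitrary and
`P₀ ≠ 0`: the unknowns grow like `N ^ (m + 1)`, the conditions like `M ^ m`.
-/

set_option autoImplicit false
set_option linter.style.haveILetI false

noncomputable section

namespace FA.MahlerPoints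

open Finset Module
open FA.MahlerTwist (boxSpan exists_eval_bound finrank_boxSpan_le one_mem_boxSpan)

variable {K : Type*} [Field K] {m : ℕ} {A : Type*} [CommRing A] [Algebra K A] {ι : Type*}
  [Fintype ι] {w : ι → A} {ψ : K →+* ℂ} {T : ℕ}

/-- Vanishing at `0` to order `M` gives small values near `0`. -/
theorem Adm.exists_bound {E : MvPowerSeries (Fin m) A} (h : Adm ψ w T E) {M : ℕ}
    (hlow : ∀ ν : Fin m →₀ ℕ, (∀ l, ν l < M) → MvPowerSeries.coeff ν E = 0) :
    ∃ B, 0 ≤ B ∧ ∀ ev : A →+* ℂ, (∀ y, ev (algebraMap K A y) = ψ y) → ∀ G : ℝ, 1 ≤ G →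
      (∀ i, ‖ev (w i)‖ ≤ G) → ∀ (ρ : ℝ) (z : Fin m → ℂ), 0 ≤ ρ → ρ ≤ 1 / 2 →
        (∀ l, ‖z l‖ ≤ ρ) → ‖value ev z E‖ ≤ B * G ^ (Fintype.card ι * T) * ρ ^ M := by
  classical
  let bas := Module.finBasis K (boxSpan (K := K) w T)
  choose φ hφ using fun t => LinearMap.exists_extend (bas.coord t)
  choose B₁ hB₁0 hB₁ using fun t => exists_eval_bound (ψ := ψ) (w := w) (bas t).2
  have hS := fun t => h.summable_functional (φ t) (z := fun _ => ((1 / 2 : ℝ) : ℂ)) fun _ => by
    rw [Complex.norm_real]; norm_num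
  set S := fun t => ∑' ν : Fin m →₀ ℕ,
    ‖ψ (φ t (MvPowerSeries.coeff ν E)) * ∏ l, ((1 / 2 : ℝ) : ℂ) ^ ν l‖
  have hS0 : ∀ t, 0 ≤ S t := fun t => tsum_nonneg fun ν => norm_nonneg _
  refine ⟨∑ t, B₁ t * (2 ^ M * S t),
    sum_nonneg fun t _ => mul_nonneg (hB₁0 t) (mul_nonneg (by positivity) (hS0 t)),
    fun ev hev G hG hw ρ z hρ0 hρ hz => ?_⟩
  set U := fun t (ν : Fin m →₀ ℕ) => ψ (φ t (MvPowerSeries.coeff ν E)) * ∏ l, z l ^ ν l
  have hterm : ∀ ν, ev (MvPowerSeries.coeff ν E) * ∏ l, z l ^ ν l =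
      ∑ t, ev (bas t : A) * U t ν := fun ν => by
    have h1 := congrArg (Submodule.subtype _) (bas.sum_repr ⟨_, h.coeff_mem ν⟩)
    have h2 : ∀ t, φ t (MvPowerSeries.coeff ν E) = bas.repr ⟨_, h.coeff_mem ν⟩ t := fun t => by
      rw [← bas.coord_apply, ← hφ t]
      rfl
    simp only [map_sum, map_smul, Submodule.subtype_apply] at h1
    conv_lhs => rw [← h1, map_sum, sum_mul]
    refine sum_congr rfl fun t _ => ?_
    rw [Algebra.smul_def, map_mul, hev, ← h2]
    ring
  have hU : ∀ t ν, ‖U t ν‖ ≤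
      2 ^ M * ρ ^ M * ‖ψ (φ t (MvPowerSeries.coeff ν E)) * ∏ l, ((1 / 2 : ℝ) : ℂ) ^ ν l‖ :=
      fun t ν => by
    by_cases hν : ∀ l, ν l < M
    · simp only [U, hlow ν hν, map_zero, zero_mul, norm_zero]
      positivity
    · push Not at hν
      obtain ⟨l₀, hl₀⟩ := hν
      have hdeg : M ≤ ∑ l, ν l := hl₀.trans (single_le_sum (fun l _ => Nat.zero_le _) (mem_univ l₀))
      simp only [U, norm_mul, norm_prod, norm_pow, Complex.norm_real, Real.norm_eq_abs,
        abs_of_pos (one_half_pos : (0 : ℝ) < 1 / 2), prod_pow_eq_pow_sum]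
      rw [mul_left_comm]
      refine mul_le_mul_of_nonneg_left ?_ (norm_nonneg _)
      calc ∏ l, ‖z l‖ ^ ν l ≤ ∏ l, ρ ^ ν l := prod_le_prod (fun l _ => by positivity)
            fun l _ => pow_le_pow_left₀ (norm_nonneg _) (hz l) _
        _ = (2 * ρ) ^ (∑ l, ν l) * (1 / 2) ^ (∑ l, ν l) := by
            rw [prod_pow_eq_pow_sum, ← mul_pow]
            congr 1
            ring
        _ ≤ (2 * ρ) ^ M * (1 / 2) ^ (∑ l, ν l) := mul_le_mul_of_nonneg_right
            (pow_le_pow_of_le_one (by positivity) (by linarith) hdeg) (by positivity)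
        _ = _ := by rw [mul_pow]
  have hUs : ∀ t, Summable fun ν => ‖U t ν‖ := fun t =>
    ((hS t).mul_left _).of_nonneg_of_le (fun _ => norm_nonneg _) (hU t)
  rw [value, tsum_congr hterm, Summable.tsum_finsetSum fun t _ => (hUs t).of_norm.mul_left _,
    sum_mul, sum_mul]
  refine (norm_sum_le _ _).trans (sum_le_sum fun t _ => ?_)
  rw [tsum_mul_left, norm_mul]
  have h3 : ‖∑' ν, U t ν‖ ≤ 2 ^ M * ρ ^ M * S t := by
    refine (norm_tsum_le_tsum_norm (hUs t)).trans ?_
    rw [← tsum_mul_left]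
    exact (hUs t).tsum_le_tsum (hU t) ((hS t).mul_left _)
  refine (mul_le_mul (hB₁ t ev hev G hG hw) h3 (norm_nonneg _)
    (mul_nonneg (hB₁0 t) (by positivity))).trans_eq ?_
  ring

/-- A regular constant term does not lower the order. -/
theorem coeff_eq_zero_of_mul {F E : MvPowerSeries (Fin m) A}
    (hF : IsLeftRegular (MvPowerSeries.constantCoeff F)) {M : ℕ}
    (h : ∀ ν : Fin m →₀ ℕ, (∀ l, ν l < M) → MvPowerSeries.coeff ν (F * E) = 0) :
    ∀ ν : Fin m →₀ ℕ, (∀ l, ν l < M) → MvPowerSeries.coeff ν E = 0 := by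
  classical
  intro ν
  induction hd : ν.degree using Nat.strong_induction_on generalizing ν with
  | _ k ih =>
  intro hν
  have h1 := h ν hν
  rw [MvPowerSeries.coeff_mul, sum_eq_single (0, ν)] at h1
  · rw [MvPowerSeries.coeff_zero_eq_constantCoeff_apply] at h1
    exact hF (h1.trans (mul_zero _).symm)
  · intro p hp hne
    rw [mem_antidiagonal] at hp
    have hp1 : p.1 ≠ 0 := fun h0 => hne (Prod.ext h0 (by simpa [h0] using hp))
    have hlt : p.2.degree < k := by
      rw [← hd, ← hp, map_add]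
      have : p.1.degree ≠ 0 := fun e => hp1 ((Finsupp.degree_eq_zero_iff _).1 e)
      omega
    have hle : ∀ l, p.2 l ≤ ν l := fun l => by rw [← hp]; simp
    rw [ih _ hlt p.2 rfl fun l => (hle l).trans_lt (hν l), mul_zero]
  · simp

variable [NumberField K] [Nontrivial A] [DecidableEq ι]

/-- **The auxiliary polynomial.** -/
theorem exists_auxiliary {F : MvPowerSeries (Fin m) A} {D : ℕ} (hF : Adm ψ w D F)
    (hreg : IsLeftRegular (MvPowerSeries.constantCoeff F)) {s : ℕ} (hs : 1 ≤ s) :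
    ∃ (N M e : ℕ) (η : (Fin m → Fin (N + 1)) → (ι → Fin (N + 1)) → K) (B : ℝ),
      1 ≤ N ∧ s * N ≤ M ∧ (∀ j v, IsIntegral ℤ (η j v)) ∧
      (∃ j, ∑ v, η j v • ∏ i, w i ^ (v i).val ≠ 0) ∧ 0 ≤ B ∧
      ∀ ev : A →+* ℂ, (∀ y, ev (algebraMap K A y) = ψ y) → ∀ G : ℝ, 1 ≤ G →
        (∀ i, ‖ev (w i)‖ ≤ G) → ∀ (ρ : ℝ) (z : Fin m → ℂ), 0 ≤ ρ → ρ ≤ 1 / 2 →
          (∀ l, ‖z l‖ ≤ ρ) → value ev z F = 0 →
            ‖∑ j, ∑ v, ψ (η j v) * ((∏ l, z l ^ (j l).val) * ∏ i, ev (w i) ^ (v i).val)‖ ≤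
              B * G ^ e * ρ ^ M := by
  classical
  set L := (D + 1) ^ Fintype.card ι
  set N := L * s ^ m with hN
  set M := s * (N + 1)
  have hN1 : 1 ≤ N := Nat.one_le_iff_ne_zero.2 (by positivity)
  have hMN : s * N ≤ M := Nat.mul_le_mul_left _ (Nat.le_succ N)
  set T := (D + 1) * N
  let V := boxSpan (K := K) w N
  let W := boxSpan (K := K) w T
  let idx := Fin (N + 1) × (Fin m → Fin (N + 1))
  let mon : (Fin m → Fin (N + 1)) → (Fin m →₀ ℕ) := fun j =>
    Finsupp.equivFunOnFinite.symm fun l => (j l).val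
  let ser : (idx → V) → MvPowerSeries (Fin m) A := fun a =>
    ∑ t : idx, MvPowerSeries.monomial (mon t.2) (a t : A) * F ^ t.1.val
  have hmon : ∀ (ν : Fin m →₀ ℕ) (t : idx) (x : A),
      x * MvPowerSeries.coeff ν (MvPowerSeries.monomial (mon t.2) 1 * F ^ t.1.val) =
        MvPowerSeries.coeff ν (MvPowerSeries.monomial (mon t.2) x * F ^ t.1.val) := fun ν t x => by
    rw [← MvPowerSeries.coeff_C_mul, ← mul_assoc]
    congr 2
    refine MvPowerSeries.ext fun u => ?_
    rw [MvPowerSeries.coeff_C_mul, MvPowerSeries.coeff_monomial, MvPowerSeries.coeff_monomial]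
    split_ifs <;> simp
  have hadm : ∀ a, Adm ψ w T (ser a) := fun a => adm_sum _ fun t _ =>
    ((adm_monomial _ (a t).2).mul (hF.pow t.1.val)).mono (by
      have := Nat.mul_le_mul_right D (Nat.lt_succ_iff.1 t.1.isLt)
      simp only [T]
      nlinarith)
  let pt : (Fin m → Fin M) → (Fin m →₀ ℕ) := fun k =>
    Finsupp.equivFunOnFinite.symm fun l => (k l).val
  let Φ : (idx → V) →ₗ[K] ((Fin m → Fin M) → W) := LinearMap.pi fun k =>
    (∑ t : idx, (LinearMap.mulRight K
      (MvPowerSeries.coeff (pt k) (MvPowerSeries.monomial (mon t.2) (1 : A) * F ^ t.1.val))).comp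
        (V.subtype.comp (LinearMap.proj t))).codRestrict W fun a => by
      convert (hadm a).coeff_mem (pt k) using 1
      simp only [ser, map_sum, LinearMap.sum_apply, LinearMap.comp_apply, LinearMap.proj_apply,
        Submodule.subtype_apply, LinearMap.mulRight_apply, hmon]
  obtain ⟨a, ha, ha0⟩ : ∃ a, Φ a = 0 ∧ a ≠ 0 := by
    by_contra hc
    push Not at hc
    have hinj : Function.Injective Φ := LinearMap.ker_eq_bot.mp
      ((Submodule.eq_bot_iff _).mpr fun e he => hc e he)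
    have hle := LinearMap.finrank_le_finrank_of_injective hinj
    rw [Module.finrank_pi_fintype, Module.finrank_pi_fintype] at hle
    simp only [sum_const, card_univ, Fintype.card_prod, Fintype.card_fun, Fintype.card_fin, idx,
      smul_eq_mul] at hle
    have hr : 0 < finrank K V := by
      rw [Module.finrank_pos_iff]
      exact ⟨⟨⟨1, one_mem_boxSpan⟩, 0, fun h => one_ne_zero (congrArg Subtype.val h)⟩⟩
    have hT : finrank K W ≤ L * finrank K V :=
      finrank_boxSpan_le (by simp only [T]; nlinarith)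
    have hlt : M ^ m * L < (N + 1) * (N + 1) ^ m := by
      rw [mul_pow, mul_right_comm, mul_comm (s ^ m) L, ← hN]
      exact Nat.mul_lt_mul_of_pos_right (Nat.lt_succ_self N) (by positivity)
    have h2 : M ^ m * finrank K W < (N + 1) * (N + 1) ^ m * finrank K V :=
      calc M ^ m * finrank K W ≤ M ^ m * (L * finrank K V) := Nat.mul_le_mul_left _ hT
        _ = M ^ m * L * finrank K V := by ring
        _ < _ := Nat.mul_lt_mul_of_pos_right hlt hr
    omega
  have hlow : ∀ ν : Fin m →₀ ℕ, (∀ l, ν l < M) → MvPowerSeries.coeff ν (ser a) = 0 :=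
      fun ν hν => by
    have h1 := congrArg Subtype.val (congrFun ha fun l => ⟨ν l, hν l⟩)
    simp only [Φ, LinearMap.pi_apply, LinearMap.codRestrict_apply, LinearMap.sum_apply,
      LinearMap.comp_apply, LinearMap.proj_apply, Submodule.subtype_apply,
      LinearMap.mulRight_apply, Pi.zero_apply, ZeroMemClass.coe_zero, hmon] at h1
    rw [show pt (fun l => ⟨ν l, hν l⟩) = ν from Finsupp.ext fun l => rfl] at h1
    simpa only [ser, map_sum] using h1
  -- the least exponent that occurs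
  let P : ℕ → MvPowerSeries (Fin m) A := fun h => if hh : h < N + 1 then
    ∑ j, MvPowerSeries.monomial (mon j) (a (⟨h, hh⟩, j) : A) else 0
  have hser : ser a = ∑ h ∈ range (N + 1), P h * F ^ h := by
    rw [← Fin.sum_univ_eq_sum_range (fun h => P h * F ^ h)]
    simp only [ser, idx, Fintype.sum_prod_type]
    refine sum_congr rfl fun h _ => ?_
    simp only [P, dif_pos h.isLt, sum_mul]
  obtain ⟨t, ht⟩ := Function.ne_iff.1 ha0
  have hex : ∃ h, ∃ hh : h < N + 1, ∃ j, a (⟨h, hh⟩, j) ≠ 0 := ⟨t.1.val, t.1.isLt, t.2, ht⟩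
  set h₀ := Nat.find hex
  obtain ⟨hh₀, j₀, hj₀⟩ := Nat.find_spec hex
  set E := ∑ k ∈ range (N + 1 - h₀), P (h₀ + k) * F ^ k with hE
  have hsE : ser a = F ^ h₀ * E := by
    have hPlow : ∀ h < h₀, P h = 0 := fun h hh => by
      have hmin := Nat.find_min hex hh
      push Not at hmin
      simp only [P, dif_pos (hh.trans hh₀)]
      exact sum_eq_zero fun j _ => by rw [hmin (hh.trans hh₀) j, ZeroMemClass.coe_zero, map_zero]
    rw [hser, show N + 1 = h₀ + (N + 1 - h₀) by omega, sum_range_add,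
      sum_eq_zero fun h hh => by rw [hPlow h (mem_range.1 hh), zero_mul], zero_add, hE, mul_sum]
    refine sum_congr rfl fun k _ => ?_
    rw [pow_add]
    ring
  have hlow' : ∀ ν : Fin m →₀ ℕ, (∀ l, ν l < M) → MvPowerSeries.coeff ν E = 0 :=
    coeff_eq_zero_of_mul (by rw [map_pow]; exact hreg.pow h₀) fun ν hν => hsE ▸ hlow ν hν
  have hPadm : ∀ h, Adm ψ w N (P h) := fun h => by
    simp only [P]
    split_ifs
    · exact adm_sum _ fun j _ => adm_monomial _ (a _).2
    · exact adm_zero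
  have hkadm : ∀ k ∈ range (N + 1 - h₀), Adm ψ w T (P (h₀ + k) * F ^ k) := fun k hk =>
    ((hPadm _).mul (hF.pow k)).mono (by
      have hk' : k ≤ N := by have := mem_range.1 hk; omega
      have := Nat.mul_le_mul_right D hk'
      simp only [T]
      nlinarith)
  obtain ⟨B, hB0, hB⟩ := (adm_sum _ hkadm).exists_bound hlow'
  -- integral coefficients
  choose η hη using fun j : Fin m → Fin (N + 1) =>
    Submodule.mem_span_range_iff_exists_fun K |>.1 (a (⟨h₀, hh₀⟩, j)).2
  haveI : Algebra.IsAlgebraic ℤ K :=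
    (IsFractionRing.comap_isAlgebraic_iff (A := ℤ) (K := ℚ) (C := K)).2 inferInstance
  obtain ⟨Dn, hDn, hDint⟩ := Algebra.IsAlgebraic.exists_integral_multiples ℤ
    ((Finset.univ : Finset ((Fin m → Fin (N + 1)) × (ι → Fin (N + 1)))).image
      fun t => η t.1 t.2)
  refine ⟨N, M, Fintype.card ι * T, fun j v => (Dn : K) * η j v, |(Dn : ℝ)| * B, hN1, hMN,
    fun j v => ?_, ⟨j₀, fun h => hj₀ ?_⟩, mul_nonneg (abs_nonneg _) hB0,
    fun ev hev G hG hw ρ z hρ0 hρ hz hFz => ?_⟩
  · have := hDint (η j v) (mem_image.2 ⟨(j, v), mem_univ _, rfl⟩)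
    simpa [mem_integralClosure_iff, zsmul_eq_mul] using this
  · refine Subtype.ext ?_
    simp only [mul_smul, ← smul_sum, hη] at h
    exact (smul_eq_zero.1 h).resolve_left (by exact_mod_cast hDn)
  have hz1 : ∀ l, ‖z l‖ < 1 := fun l => lt_of_le_of_lt (hz l) (by linarith)
  have hval : value ev z E = ∑ j, ev (a (⟨h₀, hh₀⟩, j) : A) * ∏ l, z l ^ (j l).val := by
    rw [hE, value_sum ev hev hz1 _ hkadm, sum_eq_single 0 (fun k hk hk0 => by
      rw [value_mul ev hev hz1 (hPadm _) (hF.pow k), value_pow ev hev hz1 hF, hFz,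
        zero_pow hk0, mul_zero]) (fun h => absurd (mem_range.2 (by omega)) h)]
    rw [pow_zero, mul_one, add_zero]
    simp only [P]
    rw [dif_pos hh₀, value_sum ev hev hz1 _ fun j _ => adm_monomial (ψ := ψ) _ (a _).2]
    refine sum_congr rfl fun j _ => ?_
    rw [value_monomial]
    rfl
  have hmain := hB ev hev G hG hw ρ z hρ0 hρ hz
  rw [← hE, hval] at hmain
  rw [show ∑ j, ∑ v, ψ ((Dn : K) * η j v) *
        ((∏ l, z l ^ (j l).val) * ∏ i, ev (w i) ^ (v i).val) =
      (Dn : ℂ) * ∑ j, ev (a (⟨h₀, hh₀⟩, j) : A) * ∏ l, z l ^ (j l).val by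
    rw [mul_sum]
    refine sum_congr rfl fun j _ => ?_
    rw [← hη j, map_sum, sum_mul, mul_sum]
    refine sum_congr rfl fun v _ => ?_
    rw [map_mul, map_intCast, Algebra.smul_def, map_mul, hev, map_prod]
    simp only [map_pow]
    ring, norm_mul, Complex.norm_intCast, mul_assoc |(Dn : ℝ)|, mul_assoc |(Dn : ℝ)|]
  exact mul_le_mul_of_nonneg_left hmain (abs_nonneg _)

end FA.MahlerPoints

end
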