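import Fermat.Agent.MahlerPoints.Lacunary
import Fermat.Agent.Subspace.ExponentialGrowth
import Mathlib.RingTheory.AlgebraicIndependent.AlgebraicClosure
import Mathlib.LinearAlgebra.Matrix.Adjugate
import Mathlib.Algebra.BigOperators.Fin

/-!
# Multiplicatively independent points

Finitely many monomials are largest at the `α ^ (d ^ k)`. If their combination is exponentially
small in `d ^ k`, so is each coefficient times the determinant of the shifts `k + i t`; that
determinant is a nondegenerate exponential sum, hence at least `e ^ (-ε d ^ k)` by the theorem of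
Evertse, van der Poorten and Schlickewei (the subspace theorem).
-/

set_option autoImplicit false

noncomputable section

namespace FA.MahlerPoints

open Finset
open Filter Topology
open FA.MahlerIndependence (lacunary)

variable {m : ℕ}

theorem norm_det_le {L : ℕ} (N : Matrix (Fin L) (Fin L) ℂ) (h : ∀ i j, ‖N i j‖ ≤ 1) :
    ‖N.det‖ ≤ (Fintype.card (Equiv.Perm (Fin L)) : ℝ) := by
  rw [Matrix.det_apply']
  refine (norm_sum_le _ _).trans ?_
  calc ∑ σ : Equiv.Perm (Fin L), ‖((Equiv.Perm.sign σ : ℤ) : ℂ) * ∏ i, N (σ i) i‖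
      ≤ ∑ _σ : Equiv.Perm (Fin L), (1 : ℝ) := sum_le_sum fun σ _ => by
        rcases Int.units_eq_one_or (Equiv.Perm.sign σ) with e | e <;>
          simp [e, prod_le_one (fun i _ => norm_nonneg (N (σ i) i)) fun i _ => h _ _]
    _ = _ := by simp

/-- Base `D` digits. -/
theorem eq_of_sum_digits {L D : ℕ} {f g : Fin L → ℕ} (hf : ∀ i, f i < D) (hg : ∀ i, g i < D)
    (h : ∑ i, f i * D ^ (i : ℕ) = ∑ i, g i * D ^ (i : ℕ)) : f = g := by
  have h1 : finFunctionFinEquiv (fun i => (⟨f i, hf i⟩ : Fin D)) =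
      finFunctionFinEquiv fun i => (⟨g i, hg i⟩ : Fin D) := Fin.ext (by simpa using h)
  funext i
  exact congrArg Fin.val (congrFun (finFunctionFinEquiv.injective h1) i)

/-- **A small combination of monomials of one absolute value is trivial.** -/
theorem eq_zero_of_small_unit_sum {d : ℕ} (hd : 2 ≤ d) {α : Fin m → ℂ}
    (hα : ∀ l, IsAlgebraic ℚ (α l)) (hα0 : ∀ l, α l ≠ 0)
    (hmul : ∀ e e' : Fin m → ℕ, ∏ l, α l ^ e l = ∏ l, α l ^ e' l → e = e')
    {L : ℕ} (ν : Fin L → Fin m →₀ ℕ) (hν : Function.Injective ν) (μ : Fin m →₀ ℕ)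
    (habs : ∀ i, ‖(∏ l, α l ^ ν i l) / ∏ l, α l ^ μ l‖ = 1) (c : Fin L → ℂ) {C δ : ℝ}
    (hC : 0 ≤ C) (hδ : 0 < δ)
    (h : ∀ᶠ k : ℕ in atTop, ‖∑ i, c i * ((∏ l, α l ^ ν i l) / ∏ l, α l ^ μ l) ^ d ^ k‖ ≤
      C * Real.exp (-(δ * (d ^ k : ℕ)))) : c = 0 := by
  classical
  set x : Fin L → ℂ := fun i => (∏ l, α l ^ ν i l) / ∏ l, α l ^ μ l
  obtain ⟨t, hνt⟩ : ∃ t, ∀ i l, ν i l < d ^ t := by
    refine ⟨∑ i, ∑ l, ν i l, fun i l => lt_of_le_of_lt ?_ (Nat.lt_pow_self (by omega))⟩
    exact (single_le_sum (fun l _ => Nat.zero_le _) (mem_univ l)).trans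
      (single_le_sum (f := fun i => ∑ l, ν i l) (fun i _ => Nat.zero_le _) (mem_univ i))
  set D := d ^ t
  -- the terms of the determinant
  set θ : Equiv.Perm (Fin L) → ℂ := fun π => ∏ i, x i ^ D ^ (π i : ℕ)
  have hθ : ∀ π, θ π = (∏ l, α l ^ ∑ i, ν i l * D ^ (π i : ℕ)) /
      ∏ l, α l ^ ∑ i : Fin L, μ l * D ^ (i : ℕ) := fun π => by
    simp only [θ, x, div_pow, prod_div_distrib, ← prod_pow, ← pow_mul]
    have key : ∀ e : Fin L → Fin m → ℕ, ∏ i, ∏ l, α l ^ e i l = ∏ l, α l ^ ∑ i, e i l :=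
      fun e => prod_comm.trans (prod_congr rfl fun l _ => prod_pow_eq_pow_sum _ _ _)
    rw [key fun i l => ν i l * D ^ (π i : ℕ), key fun i l => μ l * D ^ (π i : ℕ)]
    refine congrArg _ (prod_congr rfl fun l _ => ?_)
    exact congrArg _ (Equiv.sum_comp π fun i : Fin L => μ l * D ^ (i : ℕ))
  have hden : ∏ l, α l ^ ∑ i : Fin L, μ l * D ^ (i : ℕ) ≠ 0 :=
    prod_ne_zero_iff.2 fun l _ => pow_ne_zero _ (hα0 l)
  have hθalg : ∀ π, IsAlgebraic ℚ (θ π) := fun π => by
    rw [hθ, div_eq_mul_inv]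
    have hp : ∀ e : Fin m → ℕ, IsAlgebraic ℚ (∏ l, α l ^ e l) := fun e =>
      prod_induction _ (IsAlgebraic ℚ) (fun _ _ => IsAlgebraic.mul) isAlgebraic_one
        fun l _ => (hα l).pow _
    exact (hp _).mul (hp _).inv
  have hθ1 : ∀ π, ‖θ π‖ = 1 := fun π => by
    rw [norm_prod]
    exact prod_eq_one fun i _ => by rw [norm_pow, habs i, one_pow]
  have hθne : ∀ π π', π ≠ π' → ∀ M : ℕ, 0 < M → θ π ^ M ≠ θ π' ^ M := fun π π' hne M hM he => by
    rw [hθ, hθ, div_pow, div_pow, div_left_inj' (pow_ne_zero _ hden), ← prod_pow, ← prod_pow] at he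
    simp only [← pow_mul] at he
    have hcol : ∀ l, ∑ i, ν i l * D ^ (π i : ℕ) = ∑ i, ν i l * D ^ (π' i : ℕ) := fun l =>
      Nat.eq_of_mul_eq_mul_right hM (congrFun (hmul _ _ he) l)
    refine hne (Equiv.symm_bijective.injective (Equiv.ext fun j => hν (Finsupp.ext fun l => ?_)))
    refine congrFun (eq_of_sum_digits (D := D) (f := fun j => ν (π.symm j) l)
      (g := fun j => ν (π'.symm j) l) (fun j => hνt _ l) (fun j => hνt _ l) ?_) j
    rw [← Equiv.sum_comp π fun j => ν (π.symm j) l * D ^ (j : ℕ),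
      ← Equiv.sum_comp π' fun j => ν (π'.symm j) l * D ^ (j : ℕ)]
    simpa using hcol l
  have hlow := FA.Subspace.eventually_norm_lower θ
    (fun π h0 => by simpa [h0] using hθ1 π) hθalg hθne
    (fun π => Polynomial.C ((Equiv.Perm.sign π : ℤ) : ℂ))
    (fun π => Polynomial.C_ne_zero.2 (Int.cast_ne_zero.2 (Units.ne_zero _)))
    (fun π j => by
      rw [Polynomial.coeff_C]
      split_ifs
      exacts [isAlgebraic_intCast _, isAlgebraic_zero]) (half_pos hδ)
  have hpow : Tendsto (fun k : ℕ => d ^ k) atTop atTop :=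
    tendsto_pow_atTop_atTop_of_one_lt (by omega)
  have hsh : ∀ᶠ k : ℕ in atTop, ∀ j : Fin L,
      ‖∑ i, c i * x i ^ d ^ (k + j * t)‖ ≤ C * Real.exp (-(δ * (d ^ (k + j * t) : ℕ))) :=
    eventually_all.2 fun j => (tendsto_add_atTop_nat (j * t)).eventually h
  set P : ℝ := ((Fintype.card (Equiv.Perm (Fin L)) : ℕ) : ℝ)
  funext i
  refine norm_eq_zero.1 (le_antisymm ?_ (norm_nonneg _))
  have hlim : Tendsto (fun k : ℕ => L * P * C * Real.exp (-(δ / 2 * (d ^ k : ℕ)))) atTop (𝓝 0) := by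
    simpa using (Real.tendsto_exp_neg_atTop_nhds_zero.comp
      ((tendsto_natCast_atTop_atTop.comp hpow).const_mul_atTop (half_pos hδ))).const_mul
        (L * P * C)
  refine le_of_tendsto_of_tendsto tendsto_const_nhds hlim ?_
  filter_upwards [hsh, hpow.eventually hlow] with k hk hdet
  set n := d ^ k
  let Mx : Matrix (Fin L) (Fin L) ℂ := Matrix.of fun j i => (x i ^ D ^ (j : ℕ)) ^ n
  have hentry : ∀ i' j', ‖Mx i' j'‖ ≤ 1 := fun i' j' => by
    simp only [Mx, Matrix.of_apply, norm_pow]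
    exact le_of_eq (by rw [habs j', one_pow, one_pow])
  have hdet' : Mx.det = ∑ π : Equiv.Perm (Fin L), ((Equiv.Perm.sign π : ℤ) : ℂ) * θ π ^ n := by
    rw [Matrix.det_apply']
    refine sum_congr rfl fun π _ => ?_
    simp [Mx, θ, prod_pow]
  have hge : Real.exp (-(δ / 2 * n)) ≤ ‖Mx.det‖ := by
    have h1 := hdet (Equiv.refl _)
    rw [hθ1, one_pow, one_mul] at h1
    simpa [hdet'] using h1
  have hrow : ∀ j : Fin L, ‖Mx.mulVec c j‖ ≤ C * Real.exp (-(δ * n)) := fun j => by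
    have e : Mx.mulVec c j = ∑ i, c i * x i ^ d ^ (k + j * t) := by
      change ∑ i', Mx j i' * c i' = _
      refine sum_congr rfl fun i' _ => ?_
      simp only [Mx, Matrix.of_apply, n, D]
      rw [mul_comm, ← pow_mul, ← pow_mul, ← pow_add, mul_comm t, add_comm k]
    rw [e]
    refine (hk j).trans (mul_le_mul_of_nonneg_left (Real.exp_le_exp.2 (neg_le_neg
      (mul_le_mul_of_nonneg_left ?_ hδ.le))) hC)
    exact_mod_cast Nat.pow_le_pow_right (by omega : 0 < d) (Nat.le_add_right k _)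
  have hadj : ∀ a b, ‖Mx.adjugate a b‖ ≤ P := fun a b => by
    rw [Matrix.adjugate_apply]
    refine norm_det_le _ fun i' j' => ?_
    rw [Matrix.updateRow_apply]
    split_ifs
    · rw [Pi.single_apply]
      split_ifs <;> simp
    · exact hentry i' j'
  have hbound : ‖c i‖ * ‖Mx.det‖ ≤ L * P * (C * Real.exp (-(δ * n))) := by
    have e : Mx.det * c i = ∑ j, Mx.adjugate i j * Mx.mulVec c j := by
      have := congrFun (Matrix.mulVec_mulVec c Mx.adjugate Mx) i
      rw [Matrix.adjugate_mul, Matrix.smul_mulVec, Matrix.one_mulVec] at this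
      exact this.symm
    rw [mul_comm, ← norm_mul, e]
    refine (norm_sum_le _ _).trans ((sum_le_sum fun j _ => (norm_mul_le _ _).trans
      (mul_le_mul (hadj i j) (hrow j) (norm_nonneg _) (Nat.cast_nonneg _))).trans_eq ?_)
    simp [P, mul_assoc]
  have h2 : Real.exp (-(δ * n)) = Real.exp (-(δ / 2 * n)) * Real.exp (-(δ / 2 * n)) := by
    rw [← Real.exp_add]; congr 1; ring
  have h3 := (mul_le_mul_of_nonneg_left hge (norm_nonneg (c i))).trans hbound
  rw [h2] at h3
  refine le_of_mul_le_mul_right ?_ (Real.exp_pos (-(δ / 2 * n)))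
  linarith

/-- **Masser's vanishing theorem, diagonal case.** -/
theorem vanishing_of_mulIndependent {d : ℕ} (hd : 2 ≤ d) {α : Fin m → ℂ}
    (hα : ∀ l, IsAlgebraic ℚ (α l)) (hα0 : ∀ l, α l ≠ 0) (hα1 : ∀ l, ‖α l‖ < 1)
    (hmul : ∀ e e' : Fin m → ℕ, ∏ l, α l ^ e l = ∏ l, α l ^ e' l → e = e') :
    Vanishing d α := by
  classical
  intro c hc h
  by_contra hne
  obtain ⟨μ₀, hμ₀⟩ := Function.ne_iff.1 hne
  set u := fun l => -Real.log ‖α l‖
  have hu : ∀ l, 0 < u l := fun l =>
    neg_pos.2 (Real.log_neg (norm_pos_iff.2 (hα0 l)) (hα1 l))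
  set wt : (Fin m →₀ ℕ) → ℝ := fun ν => ∑ l, (ν l : ℝ) * u l
  have hfin : ∀ B, Set.Finite {ν : Fin m →₀ ℕ | wt ν ≤ B} := fun B => by
    refine Set.Finite.subset ((Set.Finite.pi fun l : Fin m =>
      Set.finite_Iic ⌊B / u l⌋₊).preimage Finsupp.equivFunOnFinite.injective.injOn)
      fun ν hν l _ => ?_
    refine Nat.le_floor ((le_div_iff₀ (hu l)).2 ?_)
    exact (single_le_sum (f := fun l => (ν l : ℝ) * u l)
      (fun i _ => mul_nonneg (Nat.cast_nonneg _) (hu i).le) (mem_univ l)).trans hν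
  set S₀ := (hfin (wt μ₀)).toFinset.filter fun ν => c ν ≠ 0
  obtain ⟨μ, hμ, hmin⟩ := Finset.exists_min_image S₀ wt ⟨μ₀, mem_filter.2
    ⟨(hfin _).mem_toFinset.2 (le_refl (wt μ₀)), hμ₀⟩⟩
  simp only [S₀, mem_filter, Set.Finite.mem_toFinset, Set.mem_ofPred_eq] at hμ hmin
  have hle : ∀ ν, c ν ≠ 0 → wt μ ≤ wt ν := fun ν hν => by
    by_cases h' : wt ν ≤ wt μ₀
    · exact hmin ν ⟨h', hν⟩
    · exact hμ.1.trans (not_le.1 h').le
  -- the gap
  obtain ⟨δ, hδ, hgap⟩ : ∃ δ > 0, ∀ ν, c ν ≠ 0 → wt ν ≠ wt μ → wt μ + δ ≤ wt ν := by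
    set T := (hfin (wt μ + 1)).toFinset.filter fun ν => wt μ < wt ν
    rcases T.eq_empty_or_nonempty with hT | hT
    · refine ⟨1, one_pos, fun ν hν hne' => le_of_not_gt fun hlt => ?_⟩
      have : ν ∈ T := by simp [T, hlt.le, (hle ν hν).lt_of_ne' hne']
      simp [hT] at this
    · obtain ⟨ν₁, hν₁, hmin'⟩ := T.exists_min_image wt hT
      simp only [T, mem_filter, Set.Finite.mem_toFinset, Set.mem_ofPred_eq] at hν₁
      refine ⟨wt ν₁ - wt μ, sub_pos.2 hν₁.2, fun ν hν hne' => ?_⟩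
      by_cases h' : wt ν ≤ wt μ + 1
      · have := hmin' ν (by simp [T, h', (hle ν hν).lt_of_ne' hne'])
        linarith
      · linarith [hν₁.1]
  set S := (hfin (wt μ)).toFinset.filter fun ν => c ν ≠ 0
  have hS : ∀ ν, c ν ≠ 0 → (ν ∈ S ↔ wt ν = wt μ) := fun ν hν => by
    simp only [S, mem_filter, Set.Finite.mem_toFinset, Set.mem_ofPred_eq]
    exact ⟨fun h' => le_antisymm h'.1 (hle ν hν), fun h' => ⟨h'.le, hν⟩⟩
  let U : ℕ → (Fin m →₀ ℕ) → ℂ := fun k ν =>
    c ν * ((∏ l, α l ^ ν l) / ∏ l, α l ^ μ l) ^ d ^ k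
  have hnorm : ∀ ν : Fin m →₀ ℕ,
      ‖(∏ l, α l ^ ν l) / ∏ l, α l ^ μ l‖ = Real.exp (-(wt ν - wt μ)) := fun ν => by
    have e : ∀ ν : Fin m →₀ ℕ, ‖∏ l, α l ^ ν l‖ = Real.exp (-wt ν) := fun ν => by
      rw [norm_prod, ← sum_neg_distrib, Real.exp_sum]
      refine prod_congr rfl fun l _ => ?_
      rw [norm_pow, ← Real.exp_log (norm_pos_iff.2 (hα0 l)), ← Real.exp_nat_mul]
      simp only [u]
      congr 1
      ring
    rw [norm_div, e, e, ← Real.exp_sub]
    congr 1
    ring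
  set U₁ : (Fin m →₀ ℕ) → ℝ := fun ν => ‖c ν‖ * Real.exp (-(wt ν - wt μ))
  have hU₁ : Summable U₁ := (hc.div_const ‖∏ l, α l ^ μ l‖).congr fun ν => by
    simp only [U₁, ← hnorm, norm_div, norm_mul, mul_div_assoc]
  have hUle : ∀ k ν, ‖U k ν‖ ≤ U₁ ν := fun k ν => by
    rcases eq_or_ne (c ν) 0 with hν | hν
    · simp [U, U₁, hν]
    simp only [U, U₁, norm_mul, norm_pow, hnorm]
    refine mul_le_mul_of_nonneg_left (pow_le_of_le_one (Real.exp_pos _).le
      (Real.exp_le_one_iff.2 ?_) (pow_ne_zero _ (by omega))) (norm_nonneg _)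
    linarith [hle ν hν]
  have hrest : ∀ k, ∀ ν : {ν // ν ∉ S}, ‖U k ν‖ ≤
      Real.exp δ * Real.exp (-(δ * (d ^ k : ℕ))) * U₁ ν := fun k ν => by
    rcases eq_or_ne (c ν.1) 0 with hν | hν
    · simp [U, U₁, hν]
    have hg := hgap _ hν fun e => ν.2 ((hS _ hν).2 e)
    simp only [U, U₁, norm_mul, norm_pow, hnorm, mul_left_comm _ ‖c ν.1‖, ← Real.exp_nat_mul,
      ← Real.exp_add]
    refine mul_le_mul_of_nonneg_left (Real.exp_le_exp.2 ?_) (norm_nonneg _)
    have h1 : (1 : ℝ) ≤ (d ^ k : ℕ) := by exact_mod_cast Nat.one_le_pow _ _ (by omega)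
    nlinarith [mul_nonneg (sub_nonneg.2 h1) (sub_nonneg.2 hg)]
  have hsmall : ∀ᶠ k : ℕ in atTop, ‖∑ ν ∈ S, U k ν‖ ≤
      (Real.exp δ * ∑' ν : {ν // ν ∉ S}, U₁ ν) * Real.exp (-(δ * (d ^ k : ℕ))) := by
    filter_upwards [h] with k hk
    have hs : Summable (U k) := (hU₁.of_nonneg_of_le (fun _ => norm_nonneg _) (hUle k)).of_norm
    have h0 : ∑' ν, U k ν = 0 := by
      rw [show (∑' ν, U k ν) = (∑' ν, c ν * ∏ l, (α l ^ d ^ k) ^ ν l) /
          (∏ l, α l ^ μ l) ^ d ^ k by
        rw [← tsum_div_const]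
        refine tsum_congr fun ν => ?_
        simp only [U, div_pow, ← prod_pow, ← pow_mul, mul_comm (d ^ k), mul_div_assoc], hk,
        zero_div]
    rw [← hs.sum_add_tsum_subtype_compl S] at h0
    rw [eq_neg_of_add_eq_zero_left h0, norm_neg, mul_right_comm, ← tsum_mul_left]
    have hsN : Summable fun ν : {ν // ν ∉ S} => ‖U k ν‖ :=
      (hU₁.of_nonneg_of_le (fun _ => norm_nonneg _) (hUle k)).subtype _
    exact (norm_tsum_le_tsum_norm hsN).trans
      (hsN.tsum_le_tsum (hrest k) ((hU₁.subtype _).mul_left _))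
  have hμS : μ ∈ S := (hS μ hμ.2).2 rfl
  set eS := S.equivFin
  refine hμ.2 ?_
  have h1 := eq_zero_of_small_unit_sum hd hα hα0 hmul (fun i => (eS.symm i).1)
    (Subtype.val_injective.comp eS.symm.injective) μ
    (fun i => by
      have hi := (eS.symm i).2
      rw [hnorm, (hS _ (mem_filter.1 hi).2).1 hi, sub_self, neg_zero, Real.exp_zero])
    (fun i => c (eS.symm i)) (C := Real.exp δ * ∑' ν : {ν // ν ∉ S}, U₁ ν)
    (mul_nonneg (Real.exp_pos δ).le (tsum_nonneg fun ν => by positivity)) hδ (by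
      filter_upwards [hsmall] with k hk
      refine le_of_eq_of_le (congrArg _ ?_) hk
      rw [← sum_coe_sort S, ← eS.symm.sum_comp])
  simpa using congrFun h1 (eS ⟨μ, hμS⟩)

/-- **Several points, multiplicatively independent.** -/
theorem mulIndependent_iff_nat {α : Fin m → ℂ} (hα0 : ∀ l, α l ≠ 0) :
    (∀ e : Fin m → ℤ, ∏ l, α l ^ e l = 1 → e = 0) →
      ∀ e e' : Fin m → ℕ, ∏ l, α l ^ e l = ∏ l, α l ^ e' l → e = e' := fun h e e' he => by
  have h1 := h (fun l => (e l : ℤ) - e' l) (by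
    simp only [zpow_sub₀ (hα0 _), zpow_natCast, prod_div_distrib, he]
    exact div_self (prod_ne_zero_iff.2 fun l _ => pow_ne_zero _ (hα0 l)))
  funext l
  have := congrFun h1 l
  simp only [Pi.zero_apply] at this
  omega

/-- **The lacunary series at multiplicatively independent points.** -/
theorem algebraicIndependent_lacunary_mul {d : ℕ} (hd : 2 ≤ d) {κ : Type*} {α : κ → ℂ}
    (hα : ∀ p, IsAlgebraic ℚ (α p)) (hα0 : ∀ p, α p ≠ 0) (hα1 : ∀ p, ‖α p‖ < 1)
    (hmul : ∀ (r : ℕ) (s : Fin r → κ), Function.Injective s →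
      ∀ e : Fin r → ℤ, ∏ l, α (s l) ^ e l = 1 → e = 0) :
    AlgebraicIndependent ℚ fun x : κ × {j : ℕ // ¬ d ∣ j} => lacunary d x.2.1 (α x.1) :=
  algebraicIndependent_lacunary_of_vanishing hd hα hα1 fun r s hs =>
    vanishing_of_mulIndependent hd (fun _ => hα _) (fun _ => hα0 _) (fun _ => hα1 _)
      (mulIndependent_iff_nat (fun _ => hα0 _) (hmul r s hs))

/-- `(1 + 2 i) / 5`. -/
def gaussPoint : ℂ := (1 + 2 * Complex.I) / 5

/-- **Real and imaginary part.** -/
theorem algebraicIndependent_gauss :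
    AlgebraicIndependent ℚ ![(lacunary 2 1 gaussPoint).re, (lacunary 2 1 gaussPoint).im] := by
  set α : Fin 2 → ℂ := ![gaussPoint, (starRingEnd ℂ) gaussPoint]
  have h0 : gaussPoint ≠ 0 := fun h => by simpa [gaussPoint] using congrArg Complex.re h
  have hn : ‖gaussPoint‖ ^ 2 = 1 / 5 := by
    rw [← Complex.normSq_eq_norm_sq, gaussPoint, Complex.normSq_apply]
    norm_num [Complex.div_re, Complex.div_im, Complex.normSq_apply]
  have hn1 : ‖gaussPoint‖ < 1 := by nlinarith [norm_nonneg gaussPoint]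
  have hne : ∀ M : ℕ, 0 < M → gaussPoint ^ M ≠ (starRingEnd ℂ) gaussPoint ^ M := fun M hM h => by
    have key : ∀ M : ℕ, 0 < M → ∃ x y : ℤ, ((1 : ℂ) + 2 * Complex.I) ^ M = x + y * Complex.I ∧
        (5 : ℤ) ∣ x - 3 * y ∧ ¬ (5 : ℤ) ∣ y := fun M hM => by
      induction M, hM using Nat.le_induction with
      | base => exact ⟨1, 2, by simp, by norm_num, by norm_num⟩
      | succ M _ ih =>
        obtain ⟨x, y, he, hd', hy⟩ := ih
        refine ⟨x - 2 * y, 2 * x + y, ?_, by omega, by omega⟩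
        rw [pow_succ, he]
        push_cast
        linear_combination (2 * y : ℂ) * Complex.I_sq
    obtain ⟨x, y, he, -, hy⟩ := key M hM
    rw [← map_pow, eq_comm, Complex.conj_eq_iff_im, gaussPoint, div_pow, he,
      show (5 : ℂ) ^ M = ((5 ^ M : ℝ) : ℂ) by push_cast; ring, Complex.div_ofReal_im] at h
    refine hy ?_
    have h' : y = 0 := by simpa using h
    simp [h']
  have hmul : ∀ e : Fin 2 → ℤ, ∏ l, α l ^ e l = 1 → e = 0 := fun e he => by
    rw [Fin.prod_univ_two] at he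
    simp only [α, Matrix.cons_val_zero, Matrix.cons_val_one] at he
    have h1 : e 0 + e 1 = 0 := by
      have h2 := congrArg norm he
      rw [norm_mul, norm_zpow, norm_zpow, Complex.norm_conj, norm_one,
        ← zpow_add₀ (norm_ne_zero_iff.2 h0)] at h2
      exact zpow_right_injective₀ (norm_pos_iff.2 h0) hn1.ne (h2.trans (zpow_zero _).symm)
    obtain ⟨M, hM | hM⟩ := (e 0).eq_nat_or_neg
    all_goals
      rcases Nat.eq_zero_or_pos M with rfl | hM0
      · funext l
        fin_cases l <;> simp_all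
      exfalso
      refine hne M hM0 ?_
      rw [show e 1 = -e 0 by omega, hM] at he
      simp only [neg_neg, zpow_neg, zpow_natCast] at he
      have hc0 : (starRingEnd ℂ) gaussPoint ^ M ≠ 0 :=
        pow_ne_zero _ ((map_ne_zero _).2 h0)
      field_simp [pow_ne_zero M h0] at he
      first | exact he | exact he.symm
  have h := ((algebraicIndependent_lacunary_mul (d := 2) le_rfl (α := α) (fun l => ?_)
    (fun l => ?_) (fun l => ?_) fun r s hs e he => ?_).comp
    (fun l : Fin 2 => (l, (⟨1, by norm_num⟩ : {j : ℕ // ¬ 2 ∣ j})))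
    fun a b hab => congrArg Prod.fst hab).algebraicClosure
  · rw [algebraicIndependent_iff]
    intro R hR
    have hI : IsAlgebraic ℚ Complex.I := ⟨Polynomial.X ^ 2 + 1, fun h => by
      simpa [Polynomial.coeff_one] using congrArg (Polynomial.coeff · 2) h, by simp⟩
    let z : algebraicClosure ℚ ℂ := ⟨Complex.I, mem_algebraicClosure_iff.2 hI⟩
    have hw : IsAlgebraic ℚ (1 / (2 * Complex.I)) := by
      rw [one_div]
      exact ((isAlgebraic_natCast 2).mul hI).inv
    let z₁ : algebraicClosure ℚ ℂ := ⟨1 / (2 * Complex.I), mem_algebraicClosure_iff.2 hw⟩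
    let z₂ : algebraicClosure ℚ ℂ :=
      ⟨1 / 2, mem_algebraicClosure_iff.2 (by rw [one_div]; exact (isAlgebraic_natCast 2).inv)⟩
    let T : MvPolynomial (Fin 2) ℚ →+* MvPolynomial (Fin 2) (algebraicClosure ℚ ℂ) :=
      MvPolynomial.eval₂Hom (MvPolynomial.C.comp (algebraMap ℚ _))
        ![MvPolynomial.C z₂ * (MvPolynomial.X 0 + MvPolynomial.X 1),
          MvPolynomial.C z₁ * (MvPolynomial.X 0 - MvPolynomial.X 1)]
    let T' : MvPolynomial (Fin 2) (algebraicClosure ℚ ℂ) →+*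
        MvPolynomial (Fin 2) (algebraicClosure ℚ ℂ) := MvPolynomial.eval₂Hom MvPolynomial.C
        ![MvPolynomial.X 0 + MvPolynomial.C z * MvPolynomial.X 1,
          MvPolynomial.X 0 - MvPolynomial.C z * MvPolynomial.X 1]
    have hconj : (starRingEnd ℂ) (lacunary 2 1 gaussPoint) =
        lacunary 2 1 ((starRingEnd ℂ) gaussPoint) := by
      simp [lacunary, Complex.conj_tsum]
    have hT : T R = 0 := by
      refine algebraicIndependent_iff.1 h _ ?_
      have h2 := congrArg (algebraMap ℝ ℂ) hR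
      rw [map_zero] at h2
      refine Eq.trans ?_ h2
      rw [MvPolynomial.aeval_def, MvPolynomial.aeval_def, ← MvPolynomial.coe_eval₂Hom,
        ← MvPolynomial.coe_eval₂Hom, ← RingHom.comp_apply, ← RingHom.comp_apply]
      refine congrArg (fun F : MvPolynomial (Fin 2) ℚ →+* ℂ => F R) ?_
      refine MvPolynomial.ringHom_ext (fun x => by simp [T]) fun i => ?_
      have hre := Complex.re_eq_add_conj (lacunary 2 1 gaussPoint)
      have him := Complex.im_eq_sub_conj (lacunary 2 1 gaussPoint)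
      rw [hconj] at hre him
      rw [div_eq_mul_inv, mul_inv, Complex.inv_I] at him
      fin_cases i <;> simp [T, α, hre, him, z₁, z₂] <;> ring
    have hTT : T'.comp T = MvPolynomial.map (algebraMap ℚ (algebraicClosure ℚ ℂ)) := by
      refine MvPolynomial.ringHom_ext (fun x => by simp [T, T']) fun i => ?_
      have e2 : MvPolynomial.C z₂ * 2 = (1 : MvPolynomial (Fin 2) (algebraicClosure ℚ ℂ)) := by
        rw [← map_ofNat MvPolynomial.C, ← map_mul, show z₂ * 2 = 1 from
          Subtype.ext (one_div_mul_cancel (two_ne_zero (α := ℂ))), map_one]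
      have ez : MvPolynomial.C z₁ * (2 * MvPolynomial.C z) =
          (1 : MvPolynomial (Fin 2) (algebraicClosure ℚ ℂ)) := by
        rw [← map_ofNat MvPolynomial.C, ← map_mul, ← map_mul, show z₁ * (2 * z) = 1 from
          Subtype.ext (one_div_mul_cancel (mul_ne_zero two_ne_zero Complex.I_ne_zero)), map_one]
      fin_cases i <;> simp [T, T']
      · linear_combination (MvPolynomial.X 0) * e2
      · linear_combination (MvPolynomial.X 1) * ez
    have h3 := congrArg T' hT
    rw [← RingHom.comp_apply, hTT, map_zero] at h3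
    exact MvPolynomial.map_injective _ (algebraMap ℚ _).injective (h3.trans (map_zero _).symm)
  · have h5 : IsAlgebraic ℚ gaussPoint := by
      have hI : IsAlgebraic ℚ Complex.I := ⟨Polynomial.X ^ 2 + 1, fun h => by
        simpa [Polynomial.coeff_one] using congrArg (Polynomial.coeff · 2) h, by simp⟩
      rw [gaussPoint, div_eq_mul_inv]
      exact (isAlgebraic_one.add ((isAlgebraic_natCast 2).mul hI)).mul
        (isAlgebraic_natCast 5).inv
    fin_cases l
    · exact h5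
    · exact h5.algHom ((Complex.conjAe.toAlgHom).restrictScalars ℚ)
  · fin_cases l <;> simp [α, h0]
  · fin_cases l <;> simp [α, hn1]
  · have hext := hmul (Function.extend s e 0) ?_
    · funext l
      simpa [hs.extend_apply] using congrFun hext (s l)
    · refine Eq.trans ?_ he
      rw [← prod_subset (subset_univ (univ.image s)) fun x _ hx => by
        rw [Function.extend_apply' _ _ _ (by simpa using hx)]; simp,
        prod_image fun a _ b _ hab => hs hab]
      exact prod_congr rfl fun l _ => by rw [hs.extend_apply]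

end FA.MahlerPoints

end
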