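import Fermat.Agent.MahlerPoints.Values
import Fermat.Agent.MahlerTwist.Lacunary
import Fermat.Agent.MahlerIndependence.Lacunary
import Fermat.Agent.KroneckerApprox.Zeta
import Mathlib.RingTheory.Localization.Module
import Mathlib.Data.Nat.Prime.Basic

/-!
# The series `∑ z ^ (j d ^ k)` at several points

Their values over all `j` not divisible by `d` and all points with independent `log |α|` are
independent; in particular at the reciprocals of all primes.
-/

set_option autoImplicit false

noncomputable section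

namespace FA.MahlerPoints

open Finset
open FA.MahlerIndependence (lacunary lacunaryInd rep_lacunary lacunary_eq)

variable {d : ℕ}

/-- **Independence over all points and all `j`.** -/
theorem algebraicIndependent_lacunary_of_vanishing (hd : 2 ≤ d) {κ : Type*} {α : κ → ℂ}
    (hα : ∀ p, IsAlgebraic ℚ (α p)) (hα1 : ∀ p, ‖α p‖ < 1)
    (hvan : ∀ (r : ℕ) (s : Fin r → κ), Function.Injective s → Vanishing d fun l => α (s l)) :
    AlgebraicIndependent ℚ fun x : κ × {j : ℕ // ¬ d ∣ j} => lacunary d x.2.1 (α x.1) := by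
  classical
  rw [algebraicIndependent_iff]
  intro P hP
  obtain ⟨n, e, he, R, rfl⟩ := MvPolynomial.exists_fin_rename P
  set S := univ.image fun i => (e i).1
  let eS : S ≃ Fin (Fintype.card S) := Fintype.equivFin _
  let loc : Fin n → Fin (Fintype.card S) :=
    fun i => eS ⟨(e i).1, mem_image_of_mem (fun i => (e i).1) (mem_univ i)⟩
  have hloc : ∀ i, (eS.symm (loc i) : κ) = (e i).1 := fun i => by simp [loc]
  have hpos : ∀ i, 0 < (e i).2.1 := fun i => Nat.pos_of_ne_zero fun h0 =>
    (e i).2.2 (h0 ▸ dvd_zero d)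
  have h := algebraicIndependent_of_vanishing (algebraMap ℚ ℂ) loc
    (fun i => lacunaryInd d (e i).2.1) (f := fun i => lacunary d (e i).2.1)
    (fun i => rep_lacunary hd (hpos i)) hd (fun i => -Polynomial.X ^ (e i).2.1)
    (fun i z hz => by simpa [← sub_eq_add_neg] using lacunary_eq hd (hpos i) hz)
    (fun l g q hg hq => by
      have h1 := FA.MahlerTwist.geomLacunary_criterion hd (j := fun i => (e i).2.1)
        (fun i => (e i).2.2) (g := fun i => -g i) (fun i k hgi hgk hjk => he (Prod.ext ?_
          (Subtype.ext hjk))) 1 (algebraMap (Polynomial ℂ) (RatFunc ℂ) q) ?_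
      · funext i
        simpa using congrFun h1 i
      · rw [← hloc i, ← hloc k, hg i (neg_ne_zero.1 hgi), hg k (neg_ne_zero.1 hgk)]
      · rw [FA.MahlerTwist.frob_algebraMap, map_one, one_mul, ← map_sub, hq]
        refine congrArg _ (sum_congr rfl fun i _ => ?_)
        simp)
    (α := fun l => α (eS.symm l)) (fun l => hα _) (fun l => hα1 _)
    (hvan _ (fun l => (eS.symm l : κ)) (Subtype.val_injective.comp eS.symm.injective))
  rw [MvPolynomial.aeval_rename] at hP
  simp only [hloc] at h
  rw [algebraicIndependent_iff.1 h R hP, map_zero]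

/-- With independent `log |α|`. -/
theorem algebraicIndependent_lacunary_points (hd : 2 ≤ d) {κ : Type*} {α : κ → ℂ}
    (hα : ∀ p, IsAlgebraic ℚ (α p)) (hα0 : ∀ p, α p ≠ 0) (hα1 : ∀ p, ‖α p‖ < 1)
    (hind : LinearIndependent ℚ fun p => Real.log ‖α p‖) :
    AlgebraicIndependent ℚ fun x : κ × {j : ℕ // ¬ d ∣ j} => lacunary d x.2.1 (α x.1) :=
  algebraicIndependent_lacunary_of_vanishing hd hα hα1 fun _ s hs =>
    vanishing_of_log hd (fun _ => hα0 _) (fun _ => hα1 _) (hind.comp s hs)

theorem linearIndependent_log_inv_primes :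
    LinearIndependent ℚ fun p : Nat.Primes => Real.log ‖((p : ℕ) : ℂ)⁻¹‖ := by
  rw [← LinearIndependent.iff_fractionRing ℤ ℚ, linearIndependent_iff']
  intro s g hg p hp
  have h := FA.KroneckerApprox.log_primes_independent
    (pr := fun i => ((s.equivFin.symm i).1 : ℕ)) (fun i => (s.equivFin.symm i).1.2)
    (fun i k hik => s.equivFin.symm.injective (Subtype.ext (Subtype.ext hik)))
    (fun i => g (s.equivFin.symm i)) (by
      rw [s.equivFin.symm.sum_comp fun q : s => (g q : ℝ) * Real.log ((q.1 : ℕ) : ℝ)]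
      rw [sum_coe_sort s fun q : Nat.Primes => (g q : ℝ) * Real.log ((q : ℕ) : ℝ)]
      have h2 := neg_eq_zero.2 hg
      rw [← sum_neg_distrib] at h2
      rw [← h2]
      exact sum_congr rfl fun q _ => by simp [zsmul_eq_mul])
  simpa using congrFun h (s.equivFin ⟨p, hp⟩)

/-- **All primes at once.** -/
theorem algebraicIndependent_primes (hd : 2 ≤ d) :
    AlgebraicIndependent ℚ fun x : Nat.Primes × {j : ℕ // ¬ d ∣ j} =>
      ∑' k : ℕ, ((1 : ℝ) / (x.1 : ℕ)) ^ ((x.2 : ℕ) * d ^ k) := by
  have h := algebraicIndependent_lacunary_points hd (α := fun p : Nat.Primes => ((p : ℕ) : ℂ)⁻¹)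
    (fun p => (isAlgebraic_natCast (R := ℚ) _).inv)
    (fun p => inv_ne_zero (Nat.cast_ne_zero.2 p.2.ne_zero)) (fun p => by
      rw [norm_inv, Complex.norm_natCast]
      exact inv_lt_one_of_one_lt₀ (Nat.one_lt_cast.2 p.2.one_lt)) linearIndependent_log_inv_primes
  refine AlgebraicIndependent.of_comp (Complex.ofRealAm.restrictScalars ℚ) ?_
  convert h using 1
  ext x
  simp [lacunary, Complex.ofReal_tsum]

end FA.MahlerPoints

end
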