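import Fermat.Agent.MahlerPoints.Series
import Fermat.Agent.MahlerIndependence.FunctionRelations
import Mathlib.Analysis.Normed.Group.Tannery
import Mathlib.Analysis.SpecialFunctions.Log.Basic
import Mathlib.LinearAlgebra.LinearIndependent.Defs

/-!
# The auxiliary values are not all zero

`Vanishing d α`: a series vanishing at `(α_1 ^ (d ^ k), …, α_m ^ (d ^ k))` for large `k` is zero.
So it is for `log |α_l|` linearly independent, one monomial dominating there. A product of
functions in separate variables is independent if the factors are.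
-/

set_option autoImplicit false

noncomputable section

namespace FA.MahlerPoints

open Finset
open Filter Topology
open FA.Mahler (Rep rep_monomial)

variable {m : ℕ}

/-- A series converging at `α` and vanishing at the `α ^ (d ^ k)` for all large `k` is zero. -/
def Vanishing (d : ℕ) (α : Fin m → ℂ) : Prop :=
  ∀ c : (Fin m →₀ ℕ) → ℂ, Summable (fun ν => ‖c ν * ∏ l, α l ^ ν l‖) →
    (∀ᶠ k : ℕ in atTop, ∑' ν, c ν * ∏ l, (α l ^ d ^ k) ^ ν l = 0) → c = 0

/-- **Dominance.** -/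
theorem vanishing_of_log {d : ℕ} (hd : 2 ≤ d) {α : Fin m → ℂ} (hα0 : ∀ l, α l ≠ 0)
    (hα1 : ∀ l, ‖α l‖ < 1) (hind : LinearIndependent ℚ fun l => Real.log ‖α l‖) :
    Vanishing d α := by
  intro c hc h
  classical
  by_contra hne
  obtain ⟨μ₀, hμ₀⟩ := Function.ne_iff.1 hne
  set u := fun l => -Real.log ‖α l‖
  have hu : ∀ l, 0 < u l := fun l =>
    neg_pos.2 (Real.log_neg (norm_pos_iff.2 (hα0 l)) (hα1 l))
  set wt : (Fin m →₀ ℕ) → ℝ := fun ν => ∑ l, (ν l : ℝ) * u l
  have hfin : Set.Finite {ν | c ν ≠ 0 ∧ wt ν ≤ wt μ₀} := by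
    refine Set.Finite.subset ((Set.Finite.pi fun l : Fin m =>
      Set.finite_Iic ⌊wt μ₀ / u l⌋₊).preimage Finsupp.equivFunOnFinite.injective.injOn)
      fun ν hν l _ => ?_
    refine Nat.le_floor ((le_div_iff₀ (hu l)).2 ?_)
    exact (single_le_sum (f := fun l => (ν l : ℝ) * u l)
      (fun i _ => mul_nonneg (Nat.cast_nonneg _) (hu i).le) (mem_univ l)).trans hν.2
  obtain ⟨μ, hμ, hmin⟩ := Finset.exists_min_image hfin.toFinset wt
    ⟨μ₀, hfin.mem_toFinset.2 ⟨hμ₀, le_rfl⟩⟩
  have hμc : c μ ≠ 0 := (hfin.mem_toFinset.1 hμ).1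
  have hlt : ∀ ν, c ν ≠ 0 → ν ≠ μ → wt μ < wt ν := fun ν hν hνμ => by
    have hle : wt μ ≤ wt ν := by
      by_cases h' : wt ν ≤ wt μ₀
      · exact hmin ν (hfin.mem_toFinset.2 ⟨hν, h'⟩)
      · exact ((hfin.mem_toFinset.1 hμ).2).trans (not_le.1 h').le
    refine hle.lt_of_ne fun e => hνμ (Finsupp.ext fun l => ?_)
    have h0 := Fintype.linearIndependent_iff.1 hind (fun l => (ν l : ℚ) - (μ l : ℚ)) (by
      simp only [Rat.smul_def, Rat.cast_sub, Rat.cast_natCast, sub_mul, sum_sub_distrib]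
      simp only [wt, u, mul_neg, sum_neg_distrib, neg_inj] at e
      rw [e, sub_self]) l
    rwa [sub_eq_zero, Nat.cast_inj] at h0
  have hnorm : ∀ k (ν : Fin m →₀ ℕ),
      ‖∏ l, (α l ^ d ^ k) ^ ν l‖ = Real.exp (-(wt ν) * (d ^ k : ℕ)) :=
      fun k ν => by
    rw [norm_prod, ← sum_neg_distrib, sum_mul, Real.exp_sum]
    refine prod_congr rfl fun l _ => ?_
    rw [norm_pow, norm_pow, ← pow_mul, ← Real.exp_log (norm_pos_iff.2 (hα0 l)), ← Real.exp_nat_mul]
    simp only [u]
    congr 1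
    push_cast
    ring
  set U : ℕ → (Fin m →₀ ℕ) → ℂ := fun k ν =>
    c ν * ((∏ l, (α l ^ d ^ k) ^ ν l) / ∏ l, (α l ^ d ^ k) ^ μ l)
  have hUn : ∀ k ν, ‖U k ν‖ = ‖c ν‖ * Real.exp (-((wt ν - wt μ) * (d ^ k : ℕ))) := fun k ν => by
    rw [norm_mul, norm_div, hnorm, hnorm, ← Real.exp_sub]
    congr 2
    ring
  have hU0 : Summable fun ν => ‖U 0 ν‖ := by
    refine (hc.div_const ‖∏ l, α l ^ μ l‖).congr fun ν => ?_
    simp [U, mul_div_assoc]
  have hlim := tendsto_tsum_of_dominated_convergence (𝓕 := atTop) (f := U)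
    (g := fun ν => if ν = μ then c μ else 0) hU0 (fun ν => ?_) (Eventually.of_forall fun k ν => ?_)
  · rw [tsum_ite_eq] at hlim
    refine hμc (tendsto_nhds_unique hlim (tendsto_const_nhds.congr' ?_))
    filter_upwards [h] with k hk
    simp only [U, ← mul_div_assoc, tsum_div_const, hk, zero_div]
  · split_ifs with hνμ
    · subst hνμ
      refine tendsto_const_nhds.congr fun k => ?_
      simp only [U]
      rw [div_self (prod_ne_zero_iff.2 fun l _ => pow_ne_zero _ (pow_ne_zero _ (hα0 l))), mul_one]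
    · rcases eq_or_ne (c ν) 0 with hν | hν
      · simp only [U, hν, zero_mul]
        exact tendsto_const_nhds
      rw [tendsto_zero_iff_norm_tendsto_zero]
      simp only [hUn]
      rw [← mul_zero ‖c ν‖]
      refine Tendsto.const_mul _ (Real.tendsto_exp_neg_atTop_nhds_zero.comp ?_)
      exact (tendsto_natCast_atTop_atTop.comp
        (tendsto_pow_atTop_atTop_of_one_lt (show 1 < d by omega))).const_mul_atTop
          (sub_pos.2 (hlt ν hν hνμ))
  · rcases eq_or_ne (c ν) 0 with hν | hν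
    · simp [U, hν]
    rw [hUn, hUn]
    refine mul_le_mul_of_nonneg_left (Real.exp_le_exp.2 (neg_le_neg ?_)) (norm_nonneg _)
    refine mul_le_mul_of_nonneg_left ?_ (sub_nonneg.2 ?_)
    · exact_mod_cast Nat.pow_le_pow_right (by omega : 0 < d) (Nat.zero_le k)
    · rcases eq_or_ne ν μ with rfl | hne'
      · exact le_rfl
      · exact (hlt ν hν hne').le

/-- **Functions of separate variables.** -/
theorem eq_zero_of_prod {D : Type*} : ∀ {m : ℕ} {S : Fin m → Type} [∀ l, Fintype (S l)]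
    (φ : ∀ l, S l → D → ℂ), (∀ l (g : S l → ℂ), (∀ x, ∑ s, g s * φ l s x = 0) → g = 0) →
    ∀ η : (∀ l, S l) → ℂ, (∀ x : Fin m → D, ∑ t, η t * ∏ l, φ l (t l) (x l) = 0) → η = 0
  | 0, S, _, φ, _, η, h => by
    funext t
    have := h Fin.elim0
    rw [Fintype.sum_subsingleton _ t] at this
    simpa using this
  | m + 1, S, _, φ, hind, η, h => by
    funext t
    have hs : ∀ x : Fin m → D, (fun s => ∑ t' : ∀ l, S (Fin.succ l),
        η (Fin.cons s t') * ∏ l, φ l.succ (t' l) (x l)) = 0 := fun x => by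
      refine hind 0 _ fun y => ?_
      rw [← h (Fin.cons y x), ← (Fin.consEquiv S).sum_comp, Fintype.sum_prod_type]
      refine sum_congr rfl fun s _ => ?_
      rw [sum_mul]
      refine sum_congr rfl fun t' _ => ?_
      simp [Fin.consEquiv, Fin.prod_univ_succ]
      ring
    have h1 := eq_zero_of_prod (fun l => φ l.succ) (fun l => hind l.succ)
      (fun t' => η (Fin.cons (t 0) t')) fun x => congrFun (hs x) (t 0)
    simpa [Fin.cons_self_tail] using congrFun h1 (Fin.tail t)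

open Polynomial in
/-- At one point: the functions with shifts are independent over the polynomials. -/
theorem eq_zero_of_shifted {d p : ℕ} (hd : 2 ≤ d) {f : Fin p → ℂ → ℂ} {b : Fin p → ℂ[X]}
    (heq : ∀ i, ∀ z : ℂ, ‖z‖ < 1 → f i (z ^ d) = f i z + (b i).eval z)
    (hb : ∀ (g : Fin p → ℂ) (q : ℂ[X]), expand ℂ d q - q = ∑ i, C (g i) * b i → g = 0)
    (γ : Fin p → ℂ) {N : ℕ} (g : Fin (N + 1) × (Fin p → Fin (N + 1)) → ℂ)
    (h : ∀ z : ℂ, ‖z‖ < 1 →
      ∑ t, g t * (z ^ t.1.val * ∏ i, (f i z - γ i) ^ (t.2 i).val) = 0) : g = 0 := by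
  classical
  set P : MvPolynomial (Fin p) ℂ[X] := ∑ t, MvPolynomial.C (C (g t) * X ^ t.1.val) *
    ∏ i, (MvPolynomial.X i - MvPolynomial.C (C (γ i))) ^ (t.2 i).val
  have hP : P = 0 := by
    refine FA.MahlerIndependence.no_relation hd heq hb fun z hz => ?_
    refine Eq.trans ?_ (h z hz)
    simp [P, mul_assoc]
  have h1 := congrArg (MvPolynomial.eval₂Hom MvPolynomial.C
    fun i => MvPolynomial.X i + MvPolynomial.C (C (γ i))) hP
  simp only [P, map_zero, map_sum, map_mul, map_prod, map_pow, map_sub, MvPolynomial.eval₂Hom_C,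
    MvPolynomial.eval₂Hom_X', add_sub_cancel_right] at h1
  funext t
  have h2 := congrArg (fun Q => Polynomial.coeff (MvPolynomial.coeff
    (Finsupp.equivFunOnFinite.symm fun i => (t.2 i).val) Q) t.1.val) h1
  simp only [MvPolynomial.coeff_zero, Polynomial.coeff_zero, MvPolynomial.coeff_sum,
    Polynomial.finsetSum_coeff] at h2
  have hprod : ∀ κ : Fin p → ℕ, ∏ i, (MvPolynomial.X i : MvPolynomial (Fin p) ℂ[X]) ^ κ i =
      MvPolynomial.monomial (Finsupp.equivFunOnFinite.symm κ) 1 := fun κ => by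
    rw [MvPolynomial.monomial_eq, map_one, one_mul, Finsupp.prod_fintype _ _ fun _ => pow_zero _]
    rfl
  rw [sum_eq_single t] at h2
  · rw [hprod, ← map_pow, ← map_mul, MvPolynomial.C_mul_monomial] at h2
    simpa [MvPolynomial.coeff_monomial, Polynomial.coeff_C_mul] using h2
  · intro t' _ hne
    rw [hprod, ← map_pow, ← map_mul, MvPolynomial.C_mul_monomial, MvPolynomial.coeff_monomial]
    split_ifs with heq'
    · rw [mul_one, Polynomial.coeff_C_mul, Polynomial.coeff_X_pow, if_neg, mul_zero]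
      intro hj
      refine hne (Prod.ext (Fin.ext hj.symm) (funext fun i => Fin.ext ?_))
      exact congrArg (fun v : Fin p →₀ ℕ => v i) heq'
    · exact Polynomial.coeff_zero _
  · exact fun ht => absurd (mem_univ t) ht

/-- `z ^ j ∏ (f_i z - γ_i) ^ v_i` over the `i` of one point. -/
def factorAt {n : ℕ} (loc : Fin n → Fin m) (f : Fin n → ℂ → ℂ) (γ : Fin n → ℂ) {N : ℕ}
    (t : (Fin m → Fin (N + 1)) × (Fin n → Fin (N + 1))) (l : Fin m) (z : ℂ) : ℂ :=
  z ^ (t.1 l).val * ∏ i ∈ univ.filter (fun i => loc i = l), (f i z - γ i) ^ (t.2 i).val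

theorem prod_factorAt {n : ℕ} (loc : Fin n → Fin m) (f : Fin n → ℂ → ℂ) (γ : Fin n → ℂ) {N : ℕ}
    (t : (Fin m → Fin (N + 1)) × (Fin n → Fin (N + 1))) (x : Fin m → ℂ) :
    ∏ l, factorAt loc f γ t l (x l) =
      (∏ l, x l ^ (t.1 l).val) * ∏ i, (f i (x (loc i)) - γ i) ^ (t.2 i).val := by
  simp only [factorAt, prod_mul_distrib]
  rw [← prod_fiberwise univ loc]
  refine congrArg _ (prod_congr rfl fun l _ => prod_congr rfl fun i hi => ?_)
  rw [(mem_filter.1 hi).2]

open Polynomial in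
/-- A polynomial vanishing on the polydisc. -/
theorem eq_zero_of_functions {d n : ℕ} (hd : 2 ≤ d) (loc : Fin n → Fin m) {f : Fin n → ℂ → ℂ}
    {b : Fin n → ℂ[X]} (heq : ∀ i, ∀ z : ℂ, ‖z‖ < 1 → f i (z ^ d) = f i z + (b i).eval z)
    (hb : ∀ (l : Fin m) (g : Fin n → ℂ) (q : ℂ[X]), (∀ i, g i ≠ 0 → loc i = l) →
      expand ℂ d q - q = ∑ i, C (g i) * b i → g = 0)
    (γ : Fin n → ℂ) {N : ℕ} (η : (Fin m → Fin (N + 1)) × (Fin n → Fin (N + 1)) → ℂ)
    (hfun : ∀ x : Fin m → ℂ, (∀ l, ‖x l‖ < 1) →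
      ∑ t, η t * ∏ l, factorAt loc f γ t l (x l) = 0) : η = 0 := by
  classical
  -- one factor at each point
  let cnt : Fin m → ℕ := fun l => Fintype.card {i // loc i = l}
  let eq : ∀ l, Fin (cnt l) ≃ {i // loc i = l} := fun l => (Fintype.equivFin _).symm
  let split : ((Fin m → Fin (N + 1)) × (Fin n → Fin (N + 1))) ≃
      (∀ l, Fin (N + 1) × (Fin (cnt l) → Fin (N + 1))) :=
    { toFun := fun t l => (t.1 l, fun i => t.2 (eq l i).1)
      invFun := fun t =>
        (fun l => (t l).1, fun i => (t (loc i)).2 ((eq (loc i)).symm ⟨i, rfl⟩))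
      left_inv := fun t => by
        refine Prod.ext rfl (funext fun i => ?_)
        simp
      right_inv := fun t => by
        funext l
        refine Prod.ext rfl (funext fun i => ?_)
        have key : ∀ (j : Fin n) (hj : loc j = l),
            (t (loc j)).2 ((eq (loc j)).symm ⟨j, rfl⟩) = (t l).2 ((eq l).symm ⟨j, hj⟩) := by
          intro j hj
          subst hj
          rfl
        simpa using key _ (eq l i).2 }
  let Dsc := {z : ℂ // ‖z‖ < 1}
  let φ : ∀ l, Fin (N + 1) × (Fin (cnt l) → Fin (N + 1)) → Dsc → ℂ := fun l s z =>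
    z.1 ^ s.1.val * ∏ i, (f (eq l i).1 z.1 - γ (eq l i).1) ^ (s.2 i).val
  have hφ : ∀ t l (z : Dsc), φ l (split t l) z = factorAt loc f γ t l z.1 := fun t l z => by
    simp only [φ, factorAt]
    refine congrArg (HMul.hMul _) ?_
    rw [prod_subtype (univ.filter fun i => loc i = l) (p := fun i => loc i = l) (by simp),
      ← (eq l).prod_comp]
    rfl
  have h0 := eq_zero_of_prod φ (fun l g hg => ?_) (fun s => η (split.symm s)) fun x => ?_
  · funext t
    simpa using congrFun h0 (split t)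
  · refine eq_zero_of_shifted hd (f := fun i => f (eq l i).1) (b := fun i => b (eq l i).1)
      (fun i => heq _) (fun g' q hq => ?_) (fun i => γ (eq l i).1) g fun z hz => hg ⟨z, hz⟩
    let g'' : Fin n → ℂ := fun i => if hi : loc i = l then g' ((eq l).symm ⟨i, hi⟩) else 0
    have h3 := hb l g'' q (fun i hi => by
      by_contra hne
      exact hi (dif_neg hne)) (hq.trans ?_)
    · funext i
      have h4 := congrFun h3 (eq l i).1
      simp only [g'', dif_pos (eq l i).2, Pi.zero_apply] at h4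
      simpa using h4
    · rw [← sum_filter_of_ne (p := fun i => loc i = l) (f := fun i => C (g'' i) * b i)
          fun i _ hi => by
            by_contra hne
            exact hi (by simp [g'', hne]),
        sum_subtype (univ.filter fun i => loc i = l) (p := fun i => loc i = l) (by simp),
        ← (eq l).sum_comp]
      refine sum_congr rfl fun i _ => ?_
      simp [g'', (eq l i).2]
  · rw [← hfun (fun l => (x l).1) (fun l => (x l).2), ← split.sum_comp]
    exact sum_congr rfl fun t _ => by simp [hφ]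

/-- The series of `factorAt`. -/
def seriesAt {n : ℕ} (loc : Fin n → Fin m) (G : Fin n → PowerSeries ℂ) (γ : Fin n → ℂ) {N : ℕ}
    (t : (Fin m → Fin (N + 1)) × (Fin n → Fin (N + 1))) (l : Fin m) : PowerSeries ℂ :=
  PowerSeries.monomial (t.1 l).val 1 *
    ∏ i ∈ univ.filter (fun i => loc i = l), (G i + PowerSeries.monomial 0 (-γ i)) ^ (t.2 i).val

theorem rep_seriesAt {n : ℕ} (loc : Fin n → Fin m) {G : Fin n → PowerSeries ℂ}
    {f : Fin n → ℂ → ℂ} (hG : ∀ i, Rep (RingHom.id ℂ) (G i) (f i)) (γ : Fin n → ℂ) {N : ℕ}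
    (t : (Fin m → Fin (N + 1)) × (Fin n → Fin (N + 1))) (l : Fin m) :
    Rep (RingHom.id ℂ) (seriesAt loc G γ t l) (factorAt loc f γ t l) := by
  classical
  have hp : ∀ s : Finset (Fin n), Rep (RingHom.id ℂ)
      (∏ i ∈ s, (G i + PowerSeries.monomial 0 (-γ i)) ^ (t.2 i).val)
      fun z => ∏ i ∈ s, (f i z - γ i) ^ (t.2 i).val := fun s => by
    induction s using Finset.induction with
    | empty => simpa using FA.MahlerTwist.rep_one (ψ := RingHom.id ℂ)
    | insert i s hi ih =>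
      simp only [prod_insert hi]
      intro z hz
      obtain ⟨h1, h2⟩ := (((hG i).add
        (rep_monomial (ψ := RingHom.id ℂ) 0 (-γ i))).pow (t.2 i).val).mul ih z hz
      refine ⟨h1, h2.trans ?_⟩
      simp [sub_eq_add_neg]
  intro z hz
  obtain ⟨h1, h2⟩ := (rep_monomial (ψ := RingHom.id ℂ) (t.1 l).val (1 : ℂ)).mul (hp _) z hz
  refine ⟨h1, h2.trans ?_⟩
  simp only [factorAt, RingHom.id_apply, one_mul]

open Polynomial in
/-- **The values of a polynomial in the points and shifted functions.** -/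
theorem eq_zero_of_values {d n : ℕ} (hd : 2 ≤ d) (loc : Fin n → Fin m) {f : Fin n → ℂ → ℂ}
    (hf : ∀ i, ∃ G, Rep (RingHom.id ℂ) G (f i)) {b : Fin n → ℂ[X]}
    (heq : ∀ i, ∀ z : ℂ, ‖z‖ < 1 → f i (z ^ d) = f i z + (b i).eval z)
    (hb : ∀ (l : Fin m) (g : Fin n → ℂ) (q : ℂ[X]), (∀ i, g i ≠ 0 → loc i = l) →
      expand ℂ d q - q = ∑ i, C (g i) * b i → g = 0)
    {α : Fin m → ℂ} (hα1 : ∀ l, ‖α l‖ < 1) (hvan : Vanishing d α) (γ : Fin n → ℂ) {N : ℕ}
    (η : (Fin m → Fin (N + 1)) × (Fin n → Fin (N + 1)) → ℂ)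
    (h : ∀ᶠ k : ℕ in atTop, ∑ t, η t * ((∏ l, (α l ^ d ^ k) ^ (t.1 l).val) *
      ∏ i, (f i (α (loc i) ^ d ^ k) - γ i) ^ (t.2 i).val) = 0) : η = 0 := by
  classical
  choose G hG using hf
  let Gt : (Fin m → Fin (N + 1)) × (Fin n → Fin (N + 1)) → Fin m → PowerSeries ℂ :=
    seriesAt loc G γ
  have hrep : ∀ t l, Rep (RingHom.id ℂ) (Gt t l) (factorAt loc f γ t l) := rep_seriesAt loc hG γ
  set c : (Fin m →₀ ℕ) → ℂ := fun ν => ∑ t, η t * ∏ l, PowerSeries.coeff (ν l) (Gt t l)
  have hval : ∀ x : Fin m → ℂ, (∀ l, ‖x l‖ < 1) →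
      Summable (fun ν => ‖c ν * ∏ l, x l ^ ν l‖) ∧
        ∑' ν, c ν * ∏ l, x l ^ ν l = ∑ t, η t * ∏ l, factorAt loc f γ t l (x l) := fun x hx => by
    have h1 := fun t => hasSum_pi (fun l i => PowerSeries.coeff i (Gt t l) * x l ^ i) fun l => by
      simpa using (hrep t l (x l) (hx l)).1
    have e : ∀ ν, c ν * ∏ l, x l ^ ν l =
        ∑ t, η t * ∏ l, (PowerSeries.coeff (ν l) (Gt t l) * x l ^ ν l) := fun ν => by
      simp only [c, sum_mul, prod_mul_distrib, mul_assoc]
    refine ⟨(summable_sum (s := univ) fun t _ => (h1 t).1.mul_left ‖η t‖).of_nonneg_of_le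
      (fun _ => norm_nonneg _) fun ν => ?_, ?_⟩
    · rw [e]
      refine (norm_sum_le _ _).trans_eq ?_
      simp only [norm_mul]
    · rw [tsum_congr e, Summable.tsum_finsetSum fun t _ => (h1 t).1.of_norm.mul_left _]
      refine sum_congr rfl fun t _ => ?_
      rw [tsum_mul_left, (h1 t).2]
      congr 1
      exact prod_congr rfl fun l _ => by simpa using (hrep t l (x l) (hx l)).2
  have hz1 : ∀ k l, ‖α l ^ d ^ k‖ < 1 := fun k l => by
    rw [norm_pow]; exact pow_lt_one₀ (norm_nonneg _) (hα1 l) (pow_ne_zero _ (by omega))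
  have hc0 : c = 0 := hvan c (hval α hα1).1 (by
    filter_upwards [h] with k hk
    rw [(hval _ (hz1 k)).2, ← hk]
    exact sum_congr rfl fun t _ => by rw [prod_factorAt])
  exact eq_zero_of_functions hd loc heq hb γ η fun x hx => by
    rw [← (hval x hx).2, hc0]
    simp

end FA.MahlerPoints

end
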