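import Fermat.Agent.MahlerTwist.Auxiliary
import Mathlib.RingTheory.MvPowerSeries.Basic
import Mathlib.Analysis.Normed.Ring.InfiniteSum

/-!
# Power series in several variables that separate

Sums of products of a parameter and series `G_1 (z_1) ⋯ G_m (z_m)`, each converging on the unit
disc. They form a ring on which evaluation at a point of the polydisc is multiplicative.
-/

set_option autoImplicit false

noncomputable section

namespace FA.MahlerPoints

open Finset
open FA.Mahler (Rep rep_monomial)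
open FA.MahlerTwist (boxSpan boxSpan_mono mul_mem_boxSpan one_mem_boxSpan rep_one)

variable {K : Type*} [Field K] {m : ℕ}

/-- `G_1 (z_1) ⋯ G_m (z_m)`. -/
def prodSer (G : Fin m → PowerSeries K) : MvPowerSeries (Fin m) K :=
  fun ν => ∏ l, PowerSeries.coeff (ν l) (G l)

theorem coeff_prodSer (G : Fin m → PowerSeries K) (ν : Fin m →₀ ℕ) :
    MvPowerSeries.coeff ν (prodSer G) = ∏ l, PowerSeries.coeff (ν l) (G l) := rfl

theorem prodSer_mul (G H : Fin m → PowerSeries K) :
    prodSer G * prodSer H = prodSer fun l => G l * H l := by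
  classical
  refine MvPowerSeries.ext fun ν => ?_
  simp only [MvPowerSeries.coeff_mul, coeff_prodSer, PowerSeries.coeff_mul, prod_univ_sum,
    ← prod_mul_distrib]
  refine sum_bij' (fun p _ l => (p.1 l, p.2 l))
    (fun t _ => (Finsupp.equivFunOnFinite.symm fun l => (t l).1,
      Finsupp.equivFunOnFinite.symm fun l => (t l).2)) ?_ ?_ ?_ ?_ ?_
  · intro p hp
    rw [mem_antidiagonal] at hp
    simp [Fintype.mem_piFinset, ← hp]
  · intro t ht
    rw [mem_antidiagonal]
    ext l
    simpa using mem_antidiagonal.1 (Fintype.mem_piFinset.1 ht l)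
  · intro p _
    ext l <;> simp
  · intro t _
    funext l
    simp
  · intro p _
    rfl

theorem prodSer_one : prodSer (1 : Fin m → PowerSeries K) = 1 := by
  classical
  refine MvPowerSeries.ext fun ν => ?_
  simp only [coeff_prodSer, Pi.one_apply, PowerSeries.coeff_one, MvPowerSeries.coeff_one]
  split_ifs with h
  · simp [h]
  · obtain ⟨l, hl⟩ := Finsupp.ne_iff.1 h
    refine prod_eq_zero (mem_univ l) (if_neg ?_)
    simpa using hl

/-- Products of absolutely convergent series. -/
theorem hasSum_pi (a : Fin m → ℕ → ℂ) (ha : ∀ l, Summable fun i => ‖a l i‖) :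
    Summable (fun ν : Fin m →₀ ℕ => ‖∏ l, a l (ν l)‖) ∧
      ∑' ν : Fin m →₀ ℕ, ∏ l, a l (ν l) = ∏ l, ∑' i, a l i := by
  suffices h : ∀ (m : ℕ) (a : Fin m → ℕ → ℂ), (∀ l, Summable fun i => ‖a l i‖) →
      Summable (fun ν : Fin m → ℕ => ‖∏ l, a l (ν l)‖) ∧
        ∑' ν : Fin m → ℕ, ∏ l, a l (ν l) = ∏ l, ∑' i, a l i by
    obtain ⟨h1, h2⟩ := h m a ha
    refine ⟨(Finsupp.equivFunOnFinite.summable_iff
      (f := fun ν : Fin m → ℕ => ‖∏ l, a l (ν l)‖)).2 h1, ?_⟩
    rw [← h2, ← Finsupp.equivFunOnFinite.tsum_eq (fun ν : Fin m → ℕ => ∏ l, a l (ν l))]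
    rfl
  intro m
  induction m with
  | zero => exact fun a _ => ⟨Summable.of_finite, by simp⟩
  | succ m ih =>
    intro a ha
    obtain ⟨h1, h2⟩ := ih (fun l => a l.succ) fun l => ha _
    have hs := Summable.mul_norm (ha 0) h1
    refine ⟨?_, ?_⟩
    · refine ((Fin.consEquiv fun _ => ℕ).summable_iff).1 (hs.congr fun p => ?_)
      simp [Fin.prod_univ_succ, Fin.consEquiv]
    · rw [← (Fin.consEquiv fun _ => ℕ).tsum_eq, Fin.prod_univ_succ, ← h2,
        tsum_mul_tsum_of_summable_norm (ha 0) h1]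
      exact tsum_congr fun p => by simp [Fin.prod_univ_succ, Fin.consEquiv]

section Adm

variable {A : Type*} [CommRing A] [Algebra K A] {ι : Type*} [Fintype ι] {w : ι → A}
  (ψ : K →+* ℂ)

/-- A finite sum of products of a parameter of degree at most `T` and a separated series. -/
inductive Adm (w : ι → A) (T : ℕ) : MvPowerSeries (Fin m) A → Prop
  | term {x : A} {G : Fin m → PowerSeries K} {g : Fin m → ℂ → ℂ} : x ∈ boxSpan (K := K) w T →
      (∀ l, Rep ψ (G l) (g l)) →
        Adm w T (MvPowerSeries.C x * MvPowerSeries.map (algebraMap K A) (prodSer G))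
  | add {E E' : MvPowerSeries (Fin m) A} : Adm w T E → Adm w T E' → Adm w T (E + E')

variable {ψ} {T T' : ℕ}

theorem adm_C {x : A} (hx : x ∈ boxSpan (K := K) w T) :
    Adm (m := m) ψ w T (MvPowerSeries.C x) := by
  simpa [prodSer_one] using Adm.term (ψ := ψ) (G := (1 : Fin m → PowerSeries K))
    (g := fun _ _ => 1) hx fun _ => rep_one

theorem adm_zero : Adm (m := m) ψ w T 0 := by
  simpa using adm_C (m := m) (ψ := ψ) (Submodule.zero_mem (boxSpan w T))

theorem Adm.mono {E : MvPowerSeries (Fin m) A} (h : Adm ψ w T E) (hT : T ≤ T') :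
    Adm ψ w T' E := by
  induction h with
  | term hx hg => exact .term (boxSpan_mono hT hx) hg
  | add _ _ h h' => exact h.add h'

theorem Adm.mul {E E' : MvPowerSeries (Fin m) A} (h : Adm ψ w T E) (h' : Adm ψ w T' E') :
    Adm ψ w (T + T') (E * E') := by
  induction h with
  | add _ _ h₁ h₂ => rw [add_mul]; exact h₁.add h₂
  | @term x G g hx hg =>
    induction h' with
    | add _ _ h₁ h₂ => rw [mul_add]; exact h₁.add h₂
    | @term y H k hy hk =>
      rw [mul_mul_mul_comm, ← map_mul, ← map_mul, prodSer_mul]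
      exact .term (mul_mem_boxSpan hx hy) fun l => (hg l).mul (hk l)

theorem Adm.pow {E : MvPowerSeries (Fin m) A} (h : Adm ψ w T E) :
    ∀ i : ℕ, Adm ψ w (i * T) (E ^ i)
  | 0 => by
    rw [pow_zero, ← map_one (MvPowerSeries.C (σ := Fin m))]
    exact adm_C one_mem_boxSpan
  | i + 1 => by rw [pow_succ, add_mul, one_mul]; exact (h.pow i).mul h

theorem adm_sum {α : Type*} (s : Finset α) {E : α → MvPowerSeries (Fin m) A}
    (h : ∀ i ∈ s, Adm ψ w T (E i)) : Adm ψ w T (∑ i ∈ s, E i) :=
  Finset.sum_induction E (Adm ψ w T) (fun _ _ => Adm.add) adm_zero h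

theorem adm_monomial (ν : Fin m →₀ ℕ) {x : A} (hx : x ∈ boxSpan (K := K) w T) :
    Adm ψ w T (MvPowerSeries.monomial ν x) := by
  classical
  have h := Adm.term (ψ := ψ) hx fun l => rep_monomial (ν l) (1 : K)
  rwa [show MvPowerSeries.C x * MvPowerSeries.map (algebraMap K A)
      (prodSer fun l => PowerSeries.monomial (ν l) (1 : K)) = MvPowerSeries.monomial ν x by
    refine MvPowerSeries.ext fun μ => ?_
    rw [MvPowerSeries.coeff_C_mul, MvPowerSeries.coeff_map, coeff_prodSer,
      MvPowerSeries.coeff_monomial]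
    simp only [PowerSeries.coeff_monomial]
    split_ifs with h
    · simp [h]
    · obtain ⟨l, hl⟩ := Finsupp.ne_iff.1 h
      rw [prod_eq_zero (mem_univ l) (if_neg hl), map_zero, mul_zero]] at h

theorem Adm.coeff_mem {E : MvPowerSeries (Fin m) A} (h : Adm ψ w T E) (ν : Fin m →₀ ℕ) :
    MvPowerSeries.coeff ν E ∈ boxSpan (K := K) w T := by
  induction h with
  | @term x G g hx hg =>
    rw [MvPowerSeries.coeff_C_mul, MvPowerSeries.coeff_map, mul_comm, ← Algebra.smul_def]
    exact Submodule.smul_mem _ _ hx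
  | add _ _ h h' => rw [map_add]; exact Submodule.add_mem _ h h'

/-- The series of absolute values. -/
theorem Adm.summable_functional {E : MvPowerSeries (Fin m) A} (h : Adm ψ w T E)
    (φ : A →ₗ[K] K) {z : Fin m → ℂ} (hz : ∀ l, ‖z l‖ < 1) :
    Summable fun ν : Fin m →₀ ℕ =>
      ‖ψ (φ (MvPowerSeries.coeff ν E)) * ∏ l, z l ^ ν l‖ := by
  induction h with
  | @term x G g hx hg =>
    refine ((hasSum_pi (fun l i => ψ (PowerSeries.coeff i (G l)) * z l ^ i)
      fun l => (hg l (z l) (hz l)).1).1.mul_left ‖ψ (φ x)‖).congr fun ν => ?_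
    rw [MvPowerSeries.coeff_C_mul, MvPowerSeries.coeff_map, mul_comm x, ← Algebra.smul_def,
      map_smul, smul_eq_mul, map_mul, coeff_prodSer, map_prod, prod_mul_distrib]
    simp only [norm_mul]
    ring
  | add _ _ h h' =>
    refine (h.add h').of_nonneg_of_le (fun _ => norm_nonneg _) fun ν => ?_
    rw [map_add, map_add, map_add, add_mul]
    exact norm_add_le _ _

/-- The value at `z`, the parameters evaluated by `ev`. -/
def value (ev : A →+* ℂ) (z : Fin m → ℂ) (E : MvPowerSeries (Fin m) A) : ℂ :=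
  ∑' ν : Fin m →₀ ℕ, ev (MvPowerSeries.coeff ν E) * ∏ l, z l ^ ν l

variable (ev : A →+* ℂ) (hev : ∀ x, ev (algebraMap K A x) = ψ x) {z : Fin m → ℂ}
  (hz : ∀ l, ‖z l‖ < 1)

include hev hz

theorem value_term {x : A} {G : Fin m → PowerSeries K} {g : Fin m → ℂ → ℂ}
    (hg : ∀ l, Rep ψ (G l) (g l)) :
    Summable (fun ν : Fin m →₀ ℕ => ‖ev (MvPowerSeries.coeff ν
        (MvPowerSeries.C x * MvPowerSeries.map (algebraMap K A) (prodSer G))) *
          ∏ l, z l ^ ν l‖) ∧
      value ev z (MvPowerSeries.C x * MvPowerSeries.map (algebraMap K A) (prodSer G)) =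
        ev x * ∏ l, g l (z l) := by
  obtain ⟨h1, h2⟩ := hasSum_pi (fun l i => ψ (PowerSeries.coeff i (G l)) * z l ^ i)
    fun l => (hg l (z l) (hz l)).1
  have e : ∀ ν : Fin m →₀ ℕ, ev (MvPowerSeries.coeff ν
      (MvPowerSeries.C x * MvPowerSeries.map (algebraMap K A) (prodSer G))) * ∏ l, z l ^ ν l =
      ev x * ∏ l, (ψ (PowerSeries.coeff (ν l) (G l)) * z l ^ ν l) := fun ν => by
    rw [MvPowerSeries.coeff_C_mul, MvPowerSeries.coeff_map, map_mul, hev, coeff_prodSer, map_prod,
      prod_mul_distrib, mul_assoc]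
  refine ⟨?_, ?_⟩
  · refine (h1.mul_left ‖ev x‖).congr fun ν => ?_
    rw [e, norm_mul]
  · rw [value, tsum_congr e, tsum_mul_left, h2, prod_congr rfl fun l _ => (hg l (z l) (hz l)).2]

theorem Adm.summable_value {E : MvPowerSeries (Fin m) A} (h : Adm ψ w T E) :
    Summable fun ν : Fin m →₀ ℕ => ‖ev (MvPowerSeries.coeff ν E) * ∏ l, z l ^ ν l‖ := by
  induction h with
  | term hx hg => exact (value_term ev hev hz hg).1
  | add _ _ h h' =>
    refine (h.add h').of_nonneg_of_le (fun _ => norm_nonneg _) fun ν => ?_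
    rw [map_add, map_add, add_mul]
    exact norm_add_le _ _

theorem value_add {E E' : MvPowerSeries (Fin m) A} (h : Adm ψ w T E) (h' : Adm ψ w T' E') :
    value ev z (E + E') = value ev z E + value ev z E' := by
  rw [value, value, value, ← (h.summable_value ev hev hz).of_norm.tsum_add
    (h'.summable_value ev hev hz).of_norm]
  exact tsum_congr fun ν => by rw [map_add, map_add, add_mul]

theorem value_mul {E E' : MvPowerSeries (Fin m) A} (h : Adm ψ w T E) (h' : Adm ψ w T' E') :
    value ev z (E * E') = value ev z E * value ev z E' := by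
  induction h with
  | @add E₁ E₂ h₁ h₂ ih₁ ih₂ =>
    rw [add_mul, value_add ev hev hz (h₁.mul h') (h₂.mul h'), ih₁, ih₂,
      value_add ev hev hz h₁ h₂, add_mul]
  | @term x G g hx hg =>
    induction h' with
    | @add E₁ E₂ h₁ h₂ ih₁ ih₂ =>
      rw [mul_add, value_add ev hev hz ((Adm.term hx hg).mul h₁) ((Adm.term hx hg).mul h₂), ih₁,
        ih₂, value_add ev hev hz h₁ h₂, mul_add]
    | @term y H k hy hk =>
      rw [mul_mul_mul_comm, ← map_mul, ← map_mul, prodSer_mul,
        (value_term ev hev hz fun l => (hg l).mul (hk l)).2, (value_term ev hev hz hg).2,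
        (value_term ev hev hz hk).2, map_mul, prod_mul_distrib]
      ring

theorem value_C (x : A) : value ev z (MvPowerSeries.C x) = ev x := by
  simpa [prodSer_one] using (value_term (x := x) ev hev hz
    (G := (1 : Fin m → PowerSeries K)) (g := fun _ _ => 1) fun _ => rep_one).2

theorem value_pow {E : MvPowerSeries (Fin m) A} (h : Adm ψ w T E) :
    ∀ i : ℕ, value ev z (E ^ i) = value ev z E ^ i
  | 0 => by rw [pow_zero, pow_zero, ← map_one (MvPowerSeries.C (σ := Fin m)),
      value_C ev hev hz, map_one]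
  | i + 1 => by rw [pow_succ, pow_succ, value_mul ev hev hz (h.pow i) h, value_pow h i]

theorem value_sum {α : Type*} (s : Finset α) {E : α → MvPowerSeries (Fin m) A}
    (h : ∀ i ∈ s, Adm ψ w T (E i)) :
    value ev z (∑ i ∈ s, E i) = ∑ i ∈ s, value ev z (E i) := by
  classical
  induction s using Finset.induction with
  | empty => simp [value]
  | insert i s hi ih =>
    rw [sum_insert hi, sum_insert hi, value_add ev hev hz (h i (mem_insert_self i s))
      (adm_sum s fun j hj => h j (mem_insert_of_mem hj)),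
      ih fun j hj => h j (mem_insert_of_mem hj)]

omit hev hz in
theorem value_monomial (ν : Fin m →₀ ℕ) (x : A) :
    value ev z (MvPowerSeries.monomial ν x) = ev x * ∏ l, z l ^ ν l := by
  classical
  rw [value, tsum_eq_single ν fun μ hμ => by
    rw [MvPowerSeries.coeff_monomial, if_neg hμ, map_zero, zero_mul],
    MvPowerSeries.coeff_monomial, if_pos rfl]

end Adm

end FA.MahlerPoints

end
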