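import Fermat.Agent.MahlerPoints.Auxiliary
import Fermat.Agent.MahlerPoints.NonVanishing
import Fermat.Agent.MahlerTwist.Values

/-!
# Mahler's method at several points

If `f_i (z ^ d) = f_i (z) + b_i (z)` and `R (f_i (α_(l i))) = 0`, then `R (f (z) - c) = 0` at
`z_l = α_l ^ (d ^ k)` for some `c` in `K` of height `O (d ^ k)`. The auxiliary polynomial has values
there of size `r ^ (M d^k)`, `r = max |α_l|`, of height `O (N d^k)`, not all zero.
-/

set_option autoImplicit false
set_option linter.style.haveILetI false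

noncomputable section

namespace FA.MahlerPoints

open Finset NumberField Module
open Filter Topology
open FA.Mahler (Rep Bd exists_bd)
open FA.MahlerTwist (boxSpan self_mem_boxSpan algebraMap_mem_boxSpan one_mem_boxSpan house_prod_le
  tendsto_pow_mul_pow_pow rep_one)

variable {K : Type*} [Field K] {n m : ℕ}

/-- The series of `R (f_i (z_(loc i)) - c_i)`. -/
def serR (loc : Fin n → Fin m) (c : Fin n → ℕ → K) (R : MvPolynomial (Fin n) K) :
    MvPowerSeries (Fin m) (MvPolynomial (Fin n) K) :=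
  MvPolynomial.eval₂ (MvPowerSeries.C.comp MvPolynomial.C) (fun i =>
    MvPowerSeries.map (algebraMap K _) (prodSer (Pi.mulSingle (loc i) (PowerSeries.mk (c i)))) +
      MvPowerSeries.C (-MvPolynomial.X i)) R

variable {ψ : K →+* ℂ} {loc : Fin n → Fin m} {c : Fin n → ℕ → K} {R : MvPolynomial (Fin n) K}
  {f : Fin n → ℂ → ℂ} (hf : ∀ i, Rep ψ (PowerSeries.mk (c i)) (f i))

include hf

theorem rep_mulSingle (i : Fin n) (l : Fin m) : Rep ψ
    ((Pi.mulSingle (loc i) (PowerSeries.mk (c i)) : Fin m → PowerSeries K) l)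
    ((Pi.mulSingle (loc i) (f i) : Fin m → ℂ → ℂ) l) := by
  rcases eq_or_ne l (loc i) with rfl | hl
  · simpa using hf i
  · rw [Pi.mulSingle_eq_of_ne hl, Pi.mulSingle_eq_of_ne hl]
    exact rep_one

theorem adm_base (i : Fin n) : Adm ψ MvPolynomial.X 1
    (MvPowerSeries.map (algebraMap K (MvPolynomial (Fin n) K))
      (prodSer (Pi.mulSingle (loc i) (PowerSeries.mk (c i)))) +
      MvPowerSeries.C (-MvPolynomial.X i)) := by
  refine Adm.add ?_ (adm_C (Submodule.neg_mem _ (self_mem_boxSpan i)))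
  simpa using Adm.term (ψ := ψ) (w := (MvPolynomial.X : Fin n → MvPolynomial (Fin n) K))
    (T := 1) one_mem_boxSpan (rep_mulSingle hf i)

theorem adm_value_serR :
    Adm ψ MvPolynomial.X R.totalDegree (serR loc c R) ∧
      ∀ ev : MvPolynomial (Fin n) K →+* ℂ, (∀ x, ev (algebraMap K _ x) = ψ x) →
        ∀ z : Fin m → ℂ, (∀ l, ‖z l‖ < 1) → value ev z (serR loc c R) =
          MvPolynomial.eval₂ ψ (fun i => f i (z (loc i)) - ev (MvPolynomial.X i)) R := by
  classical
  rw [serR, MvPolynomial.eval₂_eq']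
  set U := fun i => MvPowerSeries.map (algebraMap K (MvPolynomial (Fin n) K))
    (prodSer (Pi.mulSingle (loc i) (PowerSeries.mk (c i)))) + MvPowerSeries.C (-MvPolynomial.X i)
    with hU
  have hprod : ∀ (ν : Fin n →₀ ℕ) (s : Finset (Fin n)),
      Adm ψ MvPolynomial.X (∑ i ∈ s, ν i) (∏ i ∈ s, U i ^ ν i) := fun ν s => by
    induction s using Finset.induction with
    | empty =>
      rw [prod_empty, ← map_one (MvPowerSeries.C (σ := Fin m))]
      exact adm_C one_mem_boxSpan
    | insert i s hi ih =>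
      rw [prod_insert hi, sum_insert hi]
      exact (((adm_base hf i).pow (ν i)).mono (by rw [mul_one])).mul ih
  have hterm : ∀ ν ∈ R.support, Adm ψ MvPolynomial.X R.totalDegree
      ((MvPowerSeries.C.comp MvPolynomial.C) (MvPolynomial.coeff ν R) * ∏ i, U i ^ ν i) :=
      fun ν hν => by
    refine Adm.mono ((adm_C (T := 0) (algebraMap_mem_boxSpan _)).mul (hprod ν univ)) ?_
    rw [zero_add, ← Finsupp.degree_eq_sum]
    exact MvPolynomial.le_totalDegree hν
  refine ⟨adm_sum _ hterm, fun ev hev z hz => ?_⟩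
  rw [value_sum ev hev hz _ hterm, MvPolynomial.eval₂_eq']
  refine sum_congr rfl fun ν _ => ?_
  have hb : ∀ i, value ev z (U i) = f i (z (loc i)) - ev (MvPolynomial.X i) := fun i => by
    have h1 := (value_term (x := (1 : MvPolynomial (Fin n) K)) ev hev hz
      (rep_mulSingle (loc := loc) hf i)).2
    rw [map_one, one_mul, map_one, one_mul, prod_eq_single (loc i)
      (fun l _ hl => by rw [Pi.mulSingle_eq_of_ne hl]; rfl) (fun h => absurd (mem_univ _) h),
      Pi.mulSingle_eq_same] at h1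
    simp only [hU]
    rw [value_add ev hev hz (T := 0) (T' := 1) (by
      simpa using Adm.term (ψ := ψ) (w := (MvPolynomial.X : Fin n → MvPolynomial (Fin n) K))
        (T := 0) one_mem_boxSpan (rep_mulSingle hf i))
      (adm_C (Submodule.neg_mem _ (self_mem_boxSpan i))), h1, value_C ev hev hz, map_neg,
      sub_eq_add_neg]
  have hp : ∀ s : Finset (Fin n), value ev z (∏ i ∈ s, U i ^ ν i) =
      ∏ i ∈ s, (f i (z (loc i)) - ev (MvPolynomial.X i)) ^ ν i := fun s => by
    induction s using Finset.induction with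
    | empty =>
      rw [prod_empty, prod_empty, ← map_one (MvPowerSeries.C (σ := Fin m)),
        value_C ev hev hz, map_one]
    | insert i s hi ih =>
      rw [prod_insert hi, prod_insert hi,
        value_mul ev hev hz ((adm_base hf i).pow (ν i)) (hprod ν s),
        value_pow ev hev hz (adm_base hf i), hb, ih]
  rw [RingHom.comp_apply, ← MvPolynomial.algebraMap_eq,
    value_mul ev hev hz (adm_C (T := 0) (algebraMap_mem_boxSpan _)) (hprod ν univ), hp,
    value_C ev hev hz, hev]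

omit hf in
theorem isLeftRegular_serR (hR : R ≠ 0) :
    IsLeftRegular (MvPowerSeries.constantCoeff (serR loc c R)) := by
  set φ : MvPolynomial (Fin n) K →+* MvPolynomial (Fin n) K :=
    MvPolynomial.eval₂Hom MvPolynomial.C fun i => MvPolynomial.C (c i 0) - MvPolynomial.X i
  have h1 : ∀ i, prodSer (Pi.mulSingle (loc i) (PowerSeries.mk (c i))) (0 : Fin m →₀ ℕ) = c i 0 :=
      fun i => by
    show ∏ l, _ = _
    rw [prod_eq_single (loc i) (fun l _ hl => by
      rw [Pi.mulSingle_eq_of_ne hl]; simp) (fun h => absurd (mem_univ _) h)]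
    simp
  have h2 : MvPowerSeries.constantCoeff (serR loc c R) = φ R := by
    rw [serR, ← MvPolynomial.coe_eval₂Hom, ← RingHom.comp_apply]
    refine congrArg (fun F : MvPolynomial (Fin n) K →+* MvPolynomial (Fin n) K => F R) ?_
    refine MvPolynomial.ringHom_ext (fun a => by simp [φ]) fun i => ?_
    simp only [φ, RingHom.comp_apply, MvPolynomial.eval₂Hom_X', map_add,
      MvPowerSeries.constantCoeff_C, MvPowerSeries.constantCoeff_map, sub_eq_add_neg]
    rw [← MvPowerSeries.coeff_zero_eq_constantCoeff_apply, ← MvPolynomial.algebraMap_eq]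
    congr 2
    exact h1 i
  have h3 : φ.comp φ = RingHom.id _ :=
    MvPolynomial.ringHom_ext (fun a => by simp [φ]) fun i => by simp [φ]
  refine IsLeftCancelMulZero.mul_left_cancel_of_ne_zero fun h => hR ?_
  rw [h2] at h
  rw [← RingHom.id_apply R, ← h3, RingHom.comp_apply, h, map_zero]

omit hf

variable [NumberField K]

set_option maxHeartbeats 1000000 in
/-- **Mahler's argument at several points.** -/
theorem false_of_value_relation (ψ : K →+* ℂ) (loc : Fin n → Fin m) (c : Fin n → ℕ → K)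
    {f : Fin n → ℂ → ℂ} (hf : ∀ i, Rep ψ (PowerSeries.mk (c i)) (f i)) {d : ℕ} (hd : 2 ≤ d)
    (b : Fin n → Polynomial K)
    (heq : ∀ i, ∀ z : ℂ, ‖z‖ < 1 → f i (z ^ d) = f i z + ((b i).map ψ).eval z)
    (hb : ∀ (l : Fin m) (g : Fin n → ℂ) (q : Polynomial ℂ), (∀ i, g i ≠ 0 → loc i = l) →
      Polynomial.expand ℂ d q - q = ∑ i, Polynomial.C (g i) * (b i).map ψ → g = 0)
    (α : Fin m → K) (hα1 : ∀ l, ‖ψ (α l)‖ < 1)
    (hvan : Vanishing d fun l => ψ (α l))
    {R : MvPolynomial (Fin n) K} (hR : R ≠ 0)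
    (hRα : MvPolynomial.eval₂ ψ (fun i => f i (ψ (α (loc i)))) R = 0) : False := by
  classical
  set g := univ.sup fun i => (b i).natDegree
  obtain ⟨W, hW2, hbd⟩ := exists_bd (univ.image α ∪
    (univ ×ˢ range (g + 1)).image fun p : Fin n × ℕ => (b p.1).coeff p.2)
  have hW : 1 ≤ W := one_le_two.trans hW2
  have hu : ∀ k l, Bd W (d ^ k) (α l ^ d ^ k) := fun k l => by
    simpa using (hbd (α l) (mem_union_left _ (mem_image.2 ⟨l, mem_univ l, rfl⟩))).pow hW (d ^ k)
  set G := (g + 1) * (g + 2)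
  have hev : ∀ i k, Bd W (G * d ^ k) ((b i).eval (α (loc i) ^ d ^ k)) := fun i k => by
    have hP : (b i).natDegree ≤ g := le_sup (f := fun i => (b i).natDegree) (mem_univ i)
    rw [Polynomial.eval_eq_sum_range' (Nat.lt_succ_of_le hP)]
    refine (Bd.sum hW2 (e := 1 + g * d ^ k) (g + 1) fun j hj => ?_).mono hW ?_
    · exact ((hbd _ (mem_union_right _ (mem_image.2
        ⟨(i, j), mem_product.2 ⟨mem_univ i, mem_range.2 hj⟩, rfl⟩))).mul hW
          ((hu k (loc i)).pow hW j)).mono hW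
        (Nat.add_le_add_left (Nat.mul_le_mul_right _ (by omega)) _)
    · have : 1 ≤ d ^ k := Nat.one_le_pow _ _ (by omega)
      simp only [G]
      nlinarith
  set J := G + 1
  let γ : ℕ → Fin n → K := fun k i => ∑ j ∈ range k, (b i).eval (α (loc i) ^ d ^ j)
  have hγ : ∀ k i, Bd W (J * d ^ k) (γ k i) := fun k i => by
    induction k with
    | zero => exact ⟨1, one_ne_zero, by simpa using one_le_pow₀ hW,
        by simpa [γ] using isIntegral_zero,
        by simpa [γ, house] using pow_nonneg (zero_le_one.trans hW) J⟩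
    | succ k ih =>
      rw [show γ (k + 1) i = γ k i + (b i).eval (α (loc i) ^ d ^ k) from sum_range_succ _ k]
      refine (ih.add hW2 (hev i k)).mono hW ?_
      have hk : 1 ≤ d ^ k := Nat.one_le_pow _ _ (by omega)
      have h2 : J * (2 * d ^ k) ≤ J * d ^ (k + 1) := by
        rw [pow_succ']; exact Nat.mul_le_mul_left _ (Nat.mul_le_mul_right _ hd)
      simp only [J] at h2 ⊢
      nlinarith
  have hz1 : ∀ k l, ‖ψ (α l) ^ d ^ k‖ < 1 := fun k l => by
    rw [norm_pow]; exact pow_lt_one₀ (norm_nonneg _) (hα1 l) (pow_ne_zero _ (by omega))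
  have hval : ∀ k i,
      ψ (γ k i) = f i (ψ (α (loc i)) ^ d ^ k) - f i (ψ (α (loc i))) := fun k i => by
    induction k with
    | zero => simp [γ]
    | succ k ih =>
      rw [show γ (k + 1) i = γ k i + (b i).eval (α (loc i) ^ d ^ k) from sum_range_succ _ k,
        map_add, ih, pow_succ d, pow_mul, heq i _ (hz1 k _), Polynomial.eval_map, ← map_pow,
        Polynomial.eval₂_hom]
      ring
  -- the bound of the parameters
  have hball : ∀ i, ∃ B, 0 ≤ B ∧ ∀ z : ℂ, ‖z‖ ≤ 1 / 2 → ‖f i z‖ ≤ B * ‖z‖ ^ 0 :=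
    fun i => FA.MahlerIndependence.exists_bound (hf i) (fun j hj => absurd hj (by omega))
  choose B₁ hB₁0 hB₁ using hball
  set Γ := 1 + ∑ i, (B₁ i + ‖f i (ψ (α (loc i)))‖) with hΓdef
  have hΓ : 1 ≤ Γ := le_add_of_nonneg_right
    (sum_nonneg fun i _ => add_nonneg (hB₁0 i) (norm_nonneg _))
  -- the parameter
  obtain ⟨r, hr0, hr1, hrl⟩ : ∃ r : ℝ, 0 < r ∧ r < 1 ∧ ∀ l, ‖ψ (α l)‖ ≤ r := by
    have hne : (insert (1 / 2 : ℝ) (univ.image fun l : Fin m => ‖ψ (α l)‖)).Nonempty :=
      insert_nonempty _ _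
    refine ⟨(insert (1 / 2 : ℝ) (univ.image fun l => ‖ψ (α l)‖)).max' hne, ?_, ?_, fun l => ?_⟩
    · exact lt_of_lt_of_le (by norm_num : (0 : ℝ) < 1 / 2) (le_max' _ _ (mem_insert_self _ _))
    · refine (max'_lt_iff _ _).2 fun y hy => ?_
      rcases mem_insert.1 hy with rfl | hy
      · norm_num
      · obtain ⟨l, -, rfl⟩ := mem_image.1 hy
        exact hα1 l
    · exact le_max' _ _ (mem_insert_of_mem
        (mem_image_of_mem (fun l => ‖ψ (α l)‖) (mem_univ l)))
  set h := finrank ℚ K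
  set E₂ := m + n * J with hE₂
  obtain ⟨s₀, hs₀⟩ := exists_pow_lt_of_lt_one
    (show 0 < 1 / (2 * W ^ (2 * h * E₂)) by positivity) hr1
  set s := s₀ + 2
  have hs : r ^ s * W ^ (2 * h * E₂) ≤ 1 / 2 := by
    have h1 : r ^ s ≤ r ^ s₀ := pow_le_pow_of_le_one hr0.le hr1.le (Nat.le_add_right _ _)
    calc r ^ s * W ^ (2 * h * E₂) ≤ 1 / (2 * W ^ (2 * h * E₂)) * W ^ (2 * h * E₂) :=
          mul_le_mul_of_nonneg_right (h1.trans hs₀.le) (by positivity)
      _ = 1 / 2 := by field_simp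
  obtain ⟨N, M, ee, η, B, hN1, hMN, hηi, ⟨j₀, hj₀⟩, hB0, hup⟩ :=
    exists_auxiliary (adm_value_serR (loc := loc) (R := R) hf).1 (isLeftRegular_serR hR) (s := s)
      (by omega)
  set Y : ℕ → K := fun k => ∑ t : (Fin m → Fin (N + 1)) × (Fin n → Fin (N + 1)),
    η t.1 t.2 * ((∏ l, (α l ^ d ^ k) ^ (t.1 l).val) * ∏ i, γ k i ^ (t.2 i).val) with hYdef
  have hY : ∀ k, ψ (Y k) = ∑ t : (Fin m → Fin (N + 1)) × (Fin n → Fin (N + 1)),
      ψ (η t.1 t.2) * ((∏ l, (ψ (α l) ^ d ^ k) ^ (t.1 l).val) *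
        ∏ i, (f i (ψ (α (loc i)) ^ d ^ k) - f i (ψ (α (loc i)))) ^ (t.2 i).val) := fun k => by
    simp [Y, map_sum, map_prod, hval]
  -- not all values vanish
  have hfreq : ∃ᶠ k in atTop, Y k ≠ 0 := by
    intro hev0
    simp only [not_not] at hev0
    have hzero := eq_zero_of_values hd loc (f := f) (b := fun i => (b i).map ψ)
      (fun i => ⟨PowerSeries.map ψ (PowerSeries.mk (c i)), fun z hz => by simpa using hf i z hz⟩)
      heq hb hα1 hvan (fun i => f i (ψ (α (loc i))))
      (fun t => ψ (η t.1 t.2)) (by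
        filter_upwards [hev0] with k hk
        rw [← hY, hk, map_zero])
    refine hj₀ (sum_eq_zero fun v _ => ?_)
    rw [(map_eq_zero ψ).1 (congrFun hzero (j₀, v)), zero_smul]
  -- the house of the coefficients
  obtain ⟨E₀, hE₀⟩ := pow_unbounded_of_one_lt
    (∑ t : (Fin m → Fin (N + 1)) × (Fin n → Fin (N + 1)), house (η t.1 t.2))
    (show 1 < W by linarith)
  set Q := W ^ E₀ with hQ
  have hQ1 : 1 ≤ Q := one_le_pow₀ hW
  have hlimB : Tendsto (fun k : ℕ => B * Γ ^ ee * Q ^ (2 * h) * (1 / 2 : ℝ) ^ d ^ k) atTop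
      (𝓝 0) := by
    simpa using (tendsto_pow_mul_pow_pow hd (by norm_num : (0 : ℝ) ≤ 1 / 2) (by norm_num)
      (ρ := 1) zero_le_one).const_mul (B * Γ ^ ee * Q ^ (2 * h))
  have hlim' : ∀ᶠ k : ℕ in atTop, r ^ d ^ k ≤ 1 / 2 :=
    ((tendsto_pow_atTop_nhds_zero_of_lt_one hr0.le hr1).comp
      (tendsto_pow_atTop_atTop_of_one_lt (by omega : 1 < d))).eventually
      (ge_mem_nhds (by norm_num : (0 : ℝ) < 1 / 2))
  obtain ⟨k, hYk, hk1, hk2⟩ := (hfreq.and_eventually
    ((hlimB.eventually (gt_mem_nhds one_pos)).and hlim')).exists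
  -- the value
  have hzk : ∀ l, ‖ψ (α l) ^ d ^ k‖ ≤ r ^ d ^ k := fun l => by
    rw [norm_pow]; exact pow_le_pow_left₀ (norm_nonneg _) (hrl l) _
  let ev : MvPolynomial (Fin n) K →+* ℂ := MvPolynomial.eval₂Hom ψ fun i => ψ (γ k i)
  have hev' : ∀ x, ev (algebraMap K _ x) = ψ x := fun x => by simp [ev]
  have hle : ‖ψ (Y k)‖ ≤ B * Γ ^ ee * (r ^ d ^ k) ^ M := by
    rw [show ψ (Y k) = ∑ j, ∑ v, ψ (η j v) * ((∏ l, (ψ (α l) ^ d ^ k) ^ (j l).val) *
        ∏ i, ev (MvPolynomial.X i) ^ (v i).val) by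
      simp [hYdef, ev, Fintype.sum_prod_type, map_sum, map_prod]]
    refine hup ev hev' Γ hΓ (fun i => ?_) _ _ (by positivity) hk2 hzk ?_
    · simp only [ev, MvPolynomial.eval₂Hom_X', hval]
      refine (norm_sub_le _ _).trans ?_
      refine (add_le_add ((hB₁ i _ ((hzk _).trans hk2)).trans_eq (by rw [pow_zero, mul_one]))
        le_rfl).trans ?_
      rw [hΓdef]
      refine (single_le_sum (f := fun i => B₁ i + ‖f i (ψ (α (loc i)))‖)
        (fun i _ => add_nonneg (hB₁0 i) (norm_nonneg _)) (mem_univ i)).trans ?_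
      linarith
    · rw [(adm_value_serR hf).2 ev hev' _ (hz1 k), ← hRα]
      congr 1
      funext i
      simp [ev, hval]
  choose nu nu0 nu1 nu2 nu3 using hu k
  choose nv nv0 nv1 nv2 nv3 using hγ k
  set den : ℤ := (∏ l, nu l ^ N) * ∏ i, nv i ^ N with hden
  set X : K := (den : K) * Y k with hX
  have hXi : IsIntegral ℤ X := by
    simp only [X, Y, Finset.mul_sum]
    refine IsIntegral.sum _ fun t _ => ?_
    have hj : ∀ l, (t.1 l).val ≤ N := fun l => Nat.lt_succ_iff.mp (t.1 l).isLt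
    have hk' : ∀ i, (t.2 i).val ≤ N := fun i => Nat.lt_succ_iff.mp (t.2 i).isLt
    rw [hden]
    push_cast
    rw [show ∏ l, (nu l : K) ^ N = (∏ l, (nu l : K) ^ (N - (t.1 l).val)) *
          ∏ l, (nu l : K) ^ (t.1 l).val by
        rw [← prod_mul_distrib]
        exact prod_congr rfl fun l _ => by rw [← pow_add, Nat.sub_add_cancel (hj l)],
      show ∏ i, (nv i : K) ^ N = (∏ i, (nv i : K) ^ (N - (t.2 i).val)) *
          ∏ i, (nv i : K) ^ (t.2 i).val by
        rw [← prod_mul_distrib]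
        exact prod_congr rfl fun i _ => by rw [← pow_add, Nat.sub_add_cancel (hk' i)],
      show (∏ l, (nu l : K) ^ (N - (t.1 l).val)) * (∏ l, (nu l : K) ^ (t.1 l).val) *
        ((∏ i, (nv i : K) ^ (N - (t.2 i).val)) * ∏ i, (nv i : K) ^ (t.2 i).val) *
          (η t.1 t.2 * ((∏ l, (α l ^ d ^ k) ^ (t.1 l).val) * ∏ i, γ k i ^ (t.2 i).val)) =
        η t.1 t.2 * ((∏ l, (nu l : K) ^ (N - (t.1 l).val)) *
            ∏ i, (nv i : K) ^ (N - (t.2 i).val)) *
          ((∏ l, ((nu l : K) * α l ^ d ^ k) ^ (t.1 l).val) *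
            ∏ i, ((nv i : K) * γ k i) ^ (t.2 i).val) by
        simp only [mul_pow, prod_mul_distrib]
        ring]
    exact ((hηi _ _).mul ((IsIntegral.prod _ fun l _ =>
      (isIntegral_algebraMap (R := ℤ) (x := nu l)).pow _).mul
        (IsIntegral.prod _ fun i _ => (isIntegral_algebraMap (R := ℤ) (x := nv i)).pow _))).mul
      ((IsIntegral.prod _ fun l _ => (nu2 l).pow _).mul
        (IsIntegral.prod _ fun i _ => (nv2 i).pow _))
  have hden0 : den ≠ 0 := mul_ne_zero (prod_ne_zero_iff.2 fun l _ => pow_ne_zero _ (nu0 l))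
    (prod_ne_zero_iff.2 fun i _ => pow_ne_zero _ (nv0 i))
  have hX0 : (⟨X, hXi⟩ : 𝓞 K) ≠ 0 := fun h0 =>
    mul_ne_zero (Int.cast_ne_zero.mpr hden0) hYk (congrArg Subtype.val h0)
  set P := W ^ (N * E₂ * d ^ k) with hP
  have hP0 : 0 ≤ P := by positivity
  have hP' : (∏ _l : Fin m, (W ^ d ^ k) ^ N) * ∏ _i : Fin n, (W ^ (J * d ^ k)) ^ N = P := by
    simp only [prod_const, card_univ, Fintype.card_fin, ← pow_mul]
    rw [← pow_add, hP, hE₂]
    congr 1
    ring
  have hdenP : |(den : ℝ)| ≤ P := by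
    rw [hden, Int.cast_mul, Int.cast_prod, Int.cast_prod, abs_mul, abs_prod, abs_prod, ← hP']
    refine mul_le_mul (prod_le_prod (fun l _ => abs_nonneg _) fun l _ => ?_) (prod_le_prod
      (fun i _ => abs_nonneg _) fun i _ => ?_) (prod_nonneg fun i _ => abs_nonneg _)
      (prod_nonneg fun l _ => by positivity) <;> rw [Int.cast_pow, abs_pow]
    exacts [pow_le_pow_left₀ (abs_nonneg _) (nu1 l) _, pow_le_pow_left₀ (abs_nonneg _) (nv1 i) _]
  have hYh : house (Y k) ≤ Q * P := by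
    refine (house_sum_le_sum_house _ _).trans ?_
    refine (Finset.sum_le_sum (g := fun t => house (η t.1 t.2) * P) fun t _ => ?_).trans ?_
    · refine (house_mul_le _ _).trans (mul_le_mul_of_nonneg_left ?_ (house_nonneg _))
      rw [← hP']
      refine (house_mul_le _ _).trans (mul_le_mul (house_prod_le _ _ _ fun l _ => ?_)
        (house_prod_le _ _ _ fun i _ => ?_) (house_nonneg _)
        (prod_nonneg fun l _ => by positivity))
      · exact (house_pow_le _ _).trans ((pow_le_pow_left₀ (house_nonneg _) (nu3 l) _).trans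
          (pow_le_pow_right₀ (one_le_pow₀ hW) (Nat.lt_succ_iff.mp (t.1 l).isLt)))
      · exact (house_pow_le _ _).trans ((pow_le_pow_left₀ (house_nonneg _) (nv3 i) _).trans
          (pow_le_pow_right₀ (one_le_pow₀ hW) (Nat.lt_succ_iff.mp (t.2 i).isLt)))
    · rw [← Finset.sum_mul]
      exact mul_le_mul_of_nonneg_right hE₀.le hP0
  have hXψ : ‖ψ X‖ ≤ P * (B * Γ ^ ee * (r ^ d ^ k) ^ M) := by
    rw [hX, map_mul, map_intCast, norm_mul, Complex.norm_intCast]
    exact mul_le_mul hdenP hle (norm_nonneg _) hP0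
  have hXh : house X ≤ P * (Q * P) := by
    refine (house_mul_le _ _).trans (mul_le_mul ?_ hYh (house_nonneg _) hP0)
    rw [house_intCast, Int.cast_abs]
    exact hdenP
  have hh : 0 < h := finrank_pos
  have hmain := (GelfondSchneider.one_le_norm_mul_house_pow hX0 ψ).trans (mul_le_mul hXψ
    (pow_le_pow_left₀ (house_nonneg _) hXh (h - 1)) (pow_nonneg (house_nonneg _) _) (by positivity))
  have hP2 : P * (P * (Q * P)) ^ (h - 1) ≤ P ^ (2 * h) * Q ^ (2 * h) := by
    have hP1 : 1 ≤ P := one_le_pow₀ hW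
    rw [show P * (Q * P) = P ^ 2 * Q by ring, mul_pow, ← pow_mul, ← mul_assoc, ← pow_succ']
    exact mul_le_mul (pow_le_pow_right₀ hP1 (by omega)) (pow_le_pow_right₀ hQ1 (by omega))
      (by positivity) (by positivity)
  have hfinal : (r ^ d ^ k) ^ M * P ^ (2 * h) ≤ (1 / 2 : ℝ) ^ d ^ k := by
    refine (mul_le_mul_of_nonneg_right (pow_le_pow_of_le_one (by positivity)
      (pow_le_one₀ hr0.le hr1.le) hMN) (by positivity)).trans ?_
    rw [hP, ← pow_mul, ← pow_mul,
      show d ^ k * (s * N) = s * (N * d ^ k) by ring,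
      show N * E₂ * d ^ k * (2 * h) = 2 * h * E₂ * (N * d ^ k) by ring, pow_mul r, pow_mul W,
      ← mul_pow]
    exact (pow_le_pow_left₀ (by positivity) hs _).trans (pow_le_pow_of_le_one (by norm_num)
      (by norm_num) (Nat.le_mul_of_pos_left _ hN1))
  have : (1 : ℝ) ≤ B * Γ ^ ee * Q ^ (2 * h) * (1 / 2 : ℝ) ^ d ^ k := by
    refine hmain.trans ?_
    rw [show P * (B * Γ ^ ee * (r ^ d ^ k) ^ M) * (P * (Q * P)) ^ (h - 1) =
      B * Γ ^ ee * ((r ^ d ^ k) ^ M * (P * (P * (Q * P)) ^ (h - 1))) by ring,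
      mul_assoc (B * Γ ^ ee)]
    refine mul_le_mul_of_nonneg_left ?_ (by positivity)
    refine (mul_le_mul_of_nonneg_left hP2 (by positivity)).trans ?_
    rw [← mul_assoc, mul_comm (Q ^ (2 * h))]
    exact mul_le_mul_of_nonneg_right hfinal (by positivity)
  linarith

/-- **Algebraic independence of Mahler values at several points.** -/
theorem algebraicIndependent_of_vanishing (ψ : K →+* ℂ) (loc : Fin n → Fin m) (c : Fin n → ℕ → K)
    {f : Fin n → ℂ → ℂ} (hf : ∀ i, Rep ψ (PowerSeries.mk (c i)) (f i)) {d : ℕ} (hd : 2 ≤ d)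
    (b : Fin n → Polynomial K)
    (heq : ∀ i, ∀ z : ℂ, ‖z‖ < 1 → f i (z ^ d) = f i z + ((b i).map ψ).eval z)
    (hb : ∀ (l : Fin m) (g : Fin n → ℂ) (q : Polynomial ℂ), (∀ i, g i ≠ 0 → loc i = l) →
      Polynomial.expand ℂ d q - q = ∑ i, Polynomial.C (g i) * (b i).map ψ → g = 0)
    {α : Fin m → ℂ} (hα : ∀ l, IsAlgebraic ℚ (α l)) (hα1 : ∀ l, ‖α l‖ < 1)
    (hvan : Vanishing d α) :
    AlgebraicIndependent ℚ fun i => f i (α (loc i)) := by
  rw [algebraicIndependent_iff]
  intro R hR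
  by_contra hR0
  set F := ψ.toRatAlgHom.fieldRange ⊔ IntermediateField.adjoin ℚ (Set.range α)
  haveI : FiniteDimensional ℚ ψ.toRatAlgHom.fieldRange :=
    ψ.toRatAlgHom.toLinearMap.finiteDimensional_range
  haveI : FiniteDimensional ℚ (IntermediateField.adjoin ℚ (Set.range α)) :=
    IntermediateField.finiteDimensional_adjoin fun z hz => by
      obtain ⟨l, rfl⟩ := hz
      exact (hα l).isIntegral
  haveI : FiniteDimensional ℚ F := IntermediateField.finiteDimensional_sup _ _
  haveI : NumberField F := { }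
  let ι : K →+* F := (ψ.toRatAlgHom.codRestrict F.toSubalgebra fun x =>
    le_sup_left (a := ψ.toRatAlgHom.fieldRange) ⟨x, rfl⟩).toRingHom
  have hι : (F.val.toRingHom).comp ι = ψ := rfl
  let αF : Fin m → F := fun l => ⟨α l, le_sup_right (a := ψ.toRatAlgHom.fieldRange)
    (IntermediateField.subset_adjoin ℚ _ ⟨l, rfl⟩)⟩
  refine false_of_value_relation F.val.toRingHom loc (fun i j => ι (c i j)) (f := f) (fun i => ?_)
    hd (fun i => (b i).map ι) (fun i z hz => ?_) ?_ αF
    hα1 hvan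
    (R := MvPolynomial.map (algebraMap ℚ F) R) ?_ ?_
  · intro z hz
    simp only [PowerSeries.coeff_mk]
    have := hf i z hz
    simp only [PowerSeries.coeff_mk] at this
    exact this
  · simp only [Polynomial.map_map, hι]
    exact heq i z hz
  · simpa only [Polynomial.map_map, hι] using hb
  · exact fun h => hR0 (MvPolynomial.map_injective _ (algebraMap ℚ F).injective
      (by rw [h, map_zero]))
  · rw [MvPolynomial.eval₂_map, ← hR, MvPolynomial.aeval_def]
    congr 1

/-- With independent `log |α_l|`. -/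
theorem algebraicIndependent_values (ψ : K →+* ℂ) (loc : Fin n → Fin m) (c : Fin n → ℕ → K)
    {f : Fin n → ℂ → ℂ} (hf : ∀ i, Rep ψ (PowerSeries.mk (c i)) (f i)) {d : ℕ} (hd : 2 ≤ d)
    (b : Fin n → Polynomial K)
    (heq : ∀ i, ∀ z : ℂ, ‖z‖ < 1 → f i (z ^ d) = f i z + ((b i).map ψ).eval z)
    (hb : ∀ (l : Fin m) (g : Fin n → ℂ) (q : Polynomial ℂ), (∀ i, g i ≠ 0 → loc i = l) →
      Polynomial.expand ℂ d q - q = ∑ i, Polynomial.C (g i) * (b i).map ψ → g = 0)
    {α : Fin m → ℂ} (hα : ∀ l, IsAlgebraic ℚ (α l)) (hα0 : ∀ l, α l ≠ 0) (hα1 : ∀ l, ‖α l‖ < 1)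
    (hind : LinearIndependent ℚ fun l => Real.log ‖α l‖) :
    AlgebraicIndependent ℚ fun i => f i (α (loc i)) :=
  algebraicIndependent_of_vanishing ψ loc c hf hd b heq hb hα hα1
    (vanishing_of_log hd hα0 hα1 hind)

end FA.MahlerPoints

end
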